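import Mathlib
import Fermat.Agent.QbarInst
import Fermat.Agent.FrobExists
import Fermat.Agent.FlatOrd.InertiaLift
import Fermat.Agent.FlatOrd.Unramified

/-!
# Inertia at `p`: closedness, fixed elements, valuations, Hilbert 90
-/

set_option autoImplicit false

open Pointwise
open Fermat.Agent.FrobExists

namespace Fermat.Agent.RT.PStep

local notation "Qbar" => AlgebraicClosure ℚ
local notation "GQ" => (AlgebraicClosure ℚ ≃ₐ[ℚ] AlgebraicClosure ℚ)

section basic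

variable (P : ValuationSubring Qbar) {p : ℕ}

/-- Fixed by the inertia group. -/
def Fix (x : Qbar) : Prop := ∀ σ ∈ P.inertiaSubgroupIn ℚ, σ x = x

variable {P}

theorem Fix.mul {x y : Qbar} (hx : Fix P x) (hy : Fix P y) : Fix P (x * y) := fun σ hσ => by
  rw [map_mul, hx σ hσ, hy σ hσ]

theorem Fix.inv {x : Qbar} (hx : Fix P x) : Fix P x⁻¹ := fun σ hσ => by
  rw [map_inv₀, hx σ hσ]

theorem Fix.div {x y : Qbar} (hx : Fix P x) (hy : Fix P y) : Fix P (x / y) := fun σ hσ => by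
  rw [map_div₀, hx σ hσ, hy σ hσ]

theorem Fix.pow {x : Qbar} (hx : Fix P x) (n : ℕ) : Fix P (x ^ n) := fun σ hσ => by
  rw [map_pow, hx σ hσ]

theorem Fix.zpow {x : Qbar} (hx : Fix P x) (n : ℤ) : Fix P (x ^ n) := fun σ hσ => by
  rw [map_zpow₀, hx σ hσ]

theorem fix_natCast (n : ℕ) : Fix P (n : Qbar) := fun σ _ => map_natCast σ n

theorem fix_one : Fix P (1 : Qbar) := fun σ _ => map_one σ

/-- Membership in the inertia group through the action on `P`. -/
theorem mem_inertia_iff (hp : p.Prime) (hP : P.LiesOverPrime p) (σ : GQ) :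
    σ ∈ P.inertiaSubgroupIn ℚ ↔
      ∀ x : integralClosure ℤ Qbar, σ (x : Qbar) - x ∈ P.nonunits := by
  constructor
  · intro h x
    exact FlatOrd.InertiaLift.sub_mem_nonunits_of_mem_inertia P h (mem_of_isIntegral P x.2)
  · intro h
    exact FlatOrd.InertiaLift.mem_inertiaSubgroupIn_of_center P hp hP σ
      (fun x => (mem_center P _).mpr (h x))

theorem isClosed_inertia (hp : p.Prime) (hP : P.LiesOverPrime p) :
    IsClosed (P.inertiaSubgroupIn ℚ : Set GQ) := by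
  have h1 : (P.inertiaSubgroupIn ℚ : Set GQ) = ⋂ x : integralClosure ℤ Qbar,
      {σ : GQ | σ (x : Qbar) - x ∈ P.nonunits} := by
    ext σ
    rw [SetLike.mem_coe, mem_inertia_iff hp hP, Set.mem_iInter]
    rfl
  rw [h1]
  refine isClosed_iInter fun x => ?_
  have h2 : IsOpen (MulAction.stabilizer GQ (x : Qbar) : Set GQ) :=
    stabilizer_isOpen_of_isIntegral (K := ℚ) (x : Qbar)
  refine ⟨?_⟩
  have h3 : ∀ σ : GQ, σ ∈ {σ : GQ | σ (x : Qbar) - x ∈ P.nonunits}ᶜ →
      (σ • (MulAction.stabilizer GQ (x : Qbar) : Set GQ)) ⊆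
        {σ : GQ | σ (x : Qbar) - x ∈ P.nonunits}ᶜ := by
    rintro σ hσ _ ⟨τ, hτ, rfl⟩
    show ¬ ((σ * τ) (x : Qbar) - x ∈ P.nonunits)
    have h4 : τ (x : Qbar) = x := hτ
    rw [AlgEquiv.mul_apply, h4]
    exact hσ
  rw [isOpen_iff_mem_nhds]
  intro σ hσ
  refine Filter.mem_of_superset ?_ (h3 σ hσ)
  refine (h2.smul σ).mem_nhds ?_
  exact ⟨1, (MulAction.stabilizer GQ (x : Qbar)).one_mem, mul_one σ⟩

/-- An automorphism fixing the inertia field belongs to the inertia group. -/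
theorem mem_inertia_of_fix (hp : p.Prime) (hP : P.LiesOverPrime p) (σ : GQ)
    (h : ∀ x : Qbar, Fix P x → σ x = x) : σ ∈ P.inertiaSubgroupIn ℚ := by
  let H : ClosedSubgroup GQ := ⟨P.inertiaSubgroupIn ℚ, isClosed_inertia hp hP⟩
  have h1 := InfiniteGalois.fixingSubgroup_fixedField H
  have h2 : σ ∈ (IntermediateField.fixedField (P.inertiaSubgroupIn ℚ)).fixingSubgroup := by
    rw [IntermediateField.mem_fixingSubgroup_iff]
    intro x hx
    exact h x (fun τ hτ => hx ⟨τ, hτ⟩)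
  have h3 : (IntermediateField.fixedField (P.inertiaSubgroupIn ℚ)).fixingSubgroup =
    P.inertiaSubgroupIn ℚ := h1
  rwa [h3] at h2

theorem zero_notUnit : (0 : Qbar) ∈ P.nonunits := by simp

/-- A nonzero element fixed by inertia is a power of `p` times a unit. -/
theorem exists_zpow_mul (hp : p.Prime) (hP : P.LiesOverPrime p) {x : Qbar} (hx0 : x ≠ 0)
    (hx : Fix P x) : ∃ (k : ℤ) (u : Qbar), u ≠ 0 ∧ u ∈ P ∧ u⁻¹ ∈ P ∧ Fix P u ∧
      x = (p : Qbar) ^ k * u := by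
  have hp0 : (p : Qbar) ≠ 0 := by exact_mod_cast hp.ne_zero
  -- the case of elements of `P`
  have key : ∀ x : Qbar, x ≠ 0 → Fix P x → x ∈ P → ∃ (k : ℕ) (u : Qbar), u ≠ 0 ∧ u ∈ P ∧ u⁻¹ ∈ P ∧
      Fix P u ∧ x = (p : Qbar) ^ k * u := by
    intro x hx0 hx hxP
    classical
    have hex := FlatOrd.Unramified.exists_div_pow_notMem P hp hP x hx0
    obtain ⟨n, hn⟩ : ∃ n, Nat.find hex = n + 1 := by
      refine ⟨Nat.find hex - 1, ?_⟩
      have : Nat.find hex ≠ 0 := by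
        intro h
        have h1 := Nat.find_spec hex
        rw [h, pow_zero, div_one] at h1
        exact h1 hxP
      omega
    have h1 : x / (p : Qbar) ^ n ∈ P := by
      by_contra h
      have := Nat.find_min' hex h
      omega
    have h2 : x / (p : Qbar) ^ (n + 1) ∉ P := by
      rw [← hn]
      exact Nat.find_spec hex
    have h3 : Fix P (x / (p : Qbar) ^ n) := hx.div ((fix_natCast p).pow n)
    have h4 : x / (p : Qbar) ^ n ≠ 0 := div_ne_zero hx0 (pow_ne_zero _ hp0)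
    refine ⟨n, x / (p : Qbar) ^ n, h4, h1, ?_, h3, ?_⟩
    · by_contra h5
      have h6 : x / (p : Qbar) ^ n ∈ P.nonunits := by
        rw [ValuationSubring.mem_nonunits_iff_or]
        exact Or.inr h5
      obtain ⟨s, hs, hxs⟩ := FlatOrd.Unramified.exists_eq_mul_of_fixed P hp hP _ h3 h6
      apply h2
      rw [pow_succ, ← div_div, hxs, mul_div_cancel_left₀ _ hp0]
      exact hs
    · rw [mul_div_cancel₀ _ (pow_ne_zero _ hp0)]
  rcases P.mem_or_inv_mem x with h | h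
  · obtain ⟨k, u, hu0, h1, h2, h3, h4⟩ := key x hx0 hx h
    exact ⟨k, u, hu0, h1, h2, h3, by rw [h4, zpow_natCast]⟩
  · obtain ⟨k, u, hu0, h1, h2, h3, h4⟩ := key x⁻¹ (inv_ne_zero hx0) hx.inv h
    refine ⟨-k, u⁻¹, inv_ne_zero hu0, h2, by rwa [inv_inv], h3.inv, ?_⟩
    rw [← inv_inv x, h4, mul_inv, zpow_neg, zpow_natCast]

theorem v_eq_one_of_pow {n : ℕ} (hn : n ≠ 0) {ζ : Qbar} (h : ζ ^ n = 1) : P.valuation ζ = 1 := by
  have h1 : P.valuation ζ ^ n = 1 := by rw [← map_pow, h, map_one]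
  rcases lt_trichotomy (P.valuation ζ) 1 with h2 | h2 | h2
  · exact absurd h1 (pow_lt_one₀ zero_le h2 hn).ne
  · exact h2
  · exact absurd h1 (one_lt_pow₀ h2 hn).ne'

theorem mem_of_valuation_eq_one {x : Qbar} (h : P.valuation x = 1) : x ∈ P ∧ x⁻¹ ∈ P := by
  rw [← P.valuation_le_one_iff, ← P.valuation_le_one_iff, map_inv₀, h, inv_one]
  exact ⟨le_rfl, le_rfl⟩

theorem valuation_eq_one {x : Qbar} (hx0 : x ≠ 0) (h1 : x ∈ P) (h2 : x⁻¹ ∈ P) :
    P.valuation x = 1 := by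
  rw [← P.valuation_le_one_iff] at h1 h2
  refine le_antisymm h1 ?_
  rw [map_inv₀] at h2
  have h3 : P.valuation x ≠ 0 := by rwa [Ne, map_eq_zero]
  exact (inv_le_one₀ (zero_lt_iff.mpr h3)).mp h2

theorem v_p_lt_one (hP : P.LiesOverPrime p) : P.valuation (p : Qbar) < 1 := by
  have h : (p : Qbar) ∈ P.nonunits := hP
  rwa [ValuationSubring.mem_nonunits_iff] at h

end basic

/-- **Hilbert 90** for a subgroup `Γ` of `G_ℚ` acting on `ℚ̄ˣ`. -/
theorem hilbert90 (Γ : Subgroup GQ) (c : GQ → Qbar) (hc0 : ∀ g ∈ Γ, c g ≠ 0)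
    (hmul : ∀ g ∈ Γ, ∀ h ∈ Γ, c (g * h) = c g * g (c h))
    (E : IntermediateField ℚ Qbar) [FiniteDimensional ℚ E]
    (hE : ∀ g ∈ Γ, (∀ x ∈ E, g x = x) → c g = 1) :
    ∃ β : Qbar, β ≠ 0 ∧ ∀ g ∈ Γ, g β = c g * β := by
  classical
  let _ : Fintype (E →ₐ[ℚ] Qbar) := Fintype.ofFinite _
  let res : GQ → (E →ₐ[ℚ] Qbar) := fun g => (g : Qbar →ₐ[ℚ] Qbar).comp E.val
  have hres : ∀ (g : GQ) (x : E), res g x = g (x : Qbar) := fun g x => rfl
  -- `c` depends only on the restriction to `E`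
  have hdep : ∀ g ∈ Γ, ∀ h ∈ Γ, res g = res h → c g = c h := by
    intro g hg h hh hgh
    have h1 : c (g⁻¹ * h) = 1 := by
      refine hE _ (Γ.mul_mem (Γ.inv_mem hg) hh) fun x hx => ?_
      have h2 : g x = h x := congrArg (fun f : E →ₐ[ℚ] Qbar => f ⟨x, hx⟩) hgh
      rw [AlgEquiv.mul_apply, ← h2]
      exact g.symm_apply_apply x
    have h3 := hmul g hg (g⁻¹ * h) (Γ.mul_mem (Γ.inv_mem hg) hh)
    rw [mul_inv_cancel_left, h1, map_one, mul_one] at h3
    exact h3.symm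
  let c' : (E →ₐ[ℚ] Qbar) → Qbar := fun t =>
    if h : ∃ g ∈ Γ, res g = t then c h.choose else 0
  have hc' : ∀ g ∈ Γ, c' (res g) = c g := by
    intro g hg
    have h : ∃ g' ∈ Γ, res g' = res g := ⟨g, hg, rfl⟩
    show (if h : ∃ g' ∈ Γ, res g' = res g then c h.choose else 0) = c g
    rw [dif_pos h]
    exact hdep _ h.choose_spec.1 _ hg h.choose_spec.2
  have hc'0 : ∀ t, (¬ ∃ g ∈ Γ, res g = t) → c' t = 0 := fun t ht => dif_neg ht
  -- left translation
  let tr : GQ → (E →ₐ[ℚ] Qbar) ≃ (E →ₐ[ℚ] Qbar) := fun g =>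
    { toFun := fun t => (g : Qbar →ₐ[ℚ] Qbar).comp t
      invFun := fun t => ((g⁻¹ : GQ) : Qbar →ₐ[ℚ] Qbar).comp t
      left_inv := fun t => by
        ext x
        exact g.symm_apply_apply (t x)
      right_inv := fun t => by
        ext x
        exact g.apply_symm_apply (t x) }
  have htr : ∀ g t (x : E), tr g t x = g (t x) := fun g t x => rfl
  have htrres : ∀ g h, tr g (res h) = res (g * h) := fun g h => rfl
  have hctr : ∀ g ∈ Γ, ∀ t, c' (tr g t) = c g * g (c' t) := by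
    intro g hg t
    by_cases ht : ∃ h ∈ Γ, res h = t
    · obtain ⟨h, hh, rfl⟩ := ht
      rw [htrres, hc' _ (Γ.mul_mem hg hh), hc' h hh, hmul g hg h hh]
    · rw [hc'0 t ht, map_zero, mul_zero]
      apply hc'0
      rintro ⟨h, hh, hht⟩
      apply ht
      refine ⟨g⁻¹ * h, Γ.mul_mem (Γ.inv_mem hg) hh, ?_⟩
      rw [← htrres, hht]
      exact (tr g).left_inv t
  -- the resolvent
  let y : E → Qbar := fun x => ∑ t : E →ₐ[ℚ] Qbar, c' t * t x
  have hy : ∀ g ∈ Γ, ∀ x, c g * g (y x) = y x := by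
    intro g hg x
    show c g * g (∑ t : E →ₐ[ℚ] Qbar, c' t * t x) = ∑ t : E →ₐ[ℚ] Qbar, c' t * t x
    rw [map_sum, Finset.mul_sum, ← Equiv.sum_comp (tr g) (fun t => c' t * t x)]
    refine Finset.sum_congr rfl fun t _ => ?_
    show c g * g (c' t * t x) = c' (tr g t) * (tr g t) x
    rw [hctr g hg, htr, map_mul, mul_assoc]
  have hne : ∃ x, y x ≠ 0 := by
    by_contra hcon
    push Not at hcon
    have hli : LinearIndependent Qbar (fun t : E →ₐ[ℚ] Qbar => (t : E → Qbar)) := by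
      have h1 := linearIndependent_monoidHom E Qbar
      exact h1.comp (fun t : E →ₐ[ℚ] Qbar => (t : E →* Qbar)) (fun t s h => by
        ext x
        exact DFunLike.congr_fun h x)
    rw [Fintype.linearIndependent_iff] at hli
    have h2 := hli c' (by
      funext x
      rw [Finset.sum_apply]
      exact hcon x) (res 1)
    rw [hc' 1 Γ.one_mem] at h2
    exact hc0 1 Γ.one_mem h2
  obtain ⟨x, hx⟩ := hne
  refine ⟨(y x)⁻¹, inv_ne_zero hx, fun g hg => ?_⟩
  have h1 := hy g hg x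
  have h2 : g (y x) ≠ 0 := by rwa [Ne, EmbeddingLike.map_eq_zero_iff]
  have h3 := hc0 g hg
  rw [map_inv₀]
  field_simp
  rw [mul_comm, h1]

end Fermat.Agent.RT.PStep
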