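import Mathlib
import Fermat.Agent.QbarInst
import Fermat.Agent.FlatOrd.Key
import Fermat.Agent.RT.PStep.Basic

/-!
# An inertia element fixing the `p`-power roots of units and moving `p^{1/p}`
-/

set_option autoImplicit false

open Pointwise
open Fermat.Agent.FrobExists

namespace Fermat.Agent.RT.PStep

local notation "Qbar" => AlgebraicClosure ℚ
local notation "GQ" => (AlgebraicClosure ℚ ≃ₐ[ℚ] AlgebraicClosure ℚ)

variable (P : ValuationSubring Qbar) (p : ℕ)

/-- `p`-power roots of units of the inertia field. -/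
def Root (x : Qbar) : Prop :=
  x ≠ 0 ∧ ∃ n : ℕ, Fix P (x ^ p ^ n) ∧ x ∈ P ∧ x⁻¹ ∈ P

variable {P p}

theorem Root.mul {x y : Qbar} (hx : Root P p x) (hy : Root P p y) : Root P p (x * y) := by
  obtain ⟨hx0, n, hn, hxP, hxP'⟩ := hx
  obtain ⟨hy0, m, hm, hyP, hyP'⟩ := hy
  refine ⟨mul_ne_zero hx0 hy0, n + m, ?_, P.mul_mem _ _ hxP hyP, ?_⟩
  · have h1 := hn.pow (p ^ m)
    have h2 := hm.pow (p ^ n)
    rw [← pow_mul, ← pow_add] at h1 h2
    rw [mul_pow]
    rw [add_comm m n] at h2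
    exact h1.mul h2
  · rw [mul_inv]
    exact P.mul_mem _ _ hxP' hyP'

theorem Root.inv {x : Qbar} (hx : Root P p x) : Root P p x⁻¹ := by
  obtain ⟨hx0, n, hn, hxP, hxP'⟩ := hx
  refine ⟨inv_ne_zero hx0, n, ?_, hxP', by rwa [inv_inv]⟩
  rw [inv_pow]
  exact hn.inv

theorem root_one : Root P p 1 :=
  ⟨one_ne_zero, 0, by rw [one_pow]; exact fix_one, P.one_mem, by rw [inv_one]; exact P.one_mem⟩

theorem root_of_pow_eq_one (hp : p.Prime) {x : Qbar} {n : ℕ} (h : x ^ p ^ n = 1) : Root P p x := by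
  have h0 : x ≠ 0 := by
    rintro rfl
    rw [zero_pow (pow_ne_zero _ hp.ne_zero)] at h
    exact zero_ne_one h
  have h1 := mem_of_valuation_eq_one (v_eq_one_of_pow (P := P) (pow_ne_zero n hp.ne_zero) h)
  exact ⟨h0, n, by rw [h]; exact fix_one, h1.1, h1.2⟩

/-- Roots of unity of `p`-power order other than `1` are moved by inertia (`p` odd). -/
theorem exists_inertia_ne (hp : p.Prime) (hp2 : p ≠ 2) (hP : P.LiesOverPrime p) {ζ : Qbar}
    (hζ : ζ ^ p = 1) (hζ1 : ζ ≠ 1) : ∃ σ ∈ P.inertiaSubgroupIn ℚ, σ ζ ≠ ζ := by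
  by_contra hcon
  push Not at hcon
  have h1 : P.valuation ζ = 1 := v_eq_one_of_pow hp.ne_zero hζ
  have hζP := (mem_of_valuation_eq_one h1).1
  have h2 : ζ - 1 ∈ P.nonunits := by
    have : CharP (IsLocalRing.ResidueField P) p := by
      have hz : ((p : ℕ) : IsLocalRing.ResidueField P) = 0 := by
        have h3 : IsLocalRing.residue P (p : P) = 0 := by
          rw [IsLocalRing.residue_eq_zero_iff, ← ValuationSubring.coe_mem_nonunits_iff]
          exact_mod_cast hP
        rw [← h3, map_natCast]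
      have h4 : ringChar (IsLocalRing.ResidueField P) = p :=
        ((Nat.dvd_prime hp).mp (ringChar.dvd hz)).resolve_left (CharP.ringChar_ne_one)
      exact ringChar.of_eq h4
    have : Fact p.Prime := ⟨hp⟩
    let z : P := ⟨ζ, hζP⟩
    have h5 : (z - 1 : P) ∈ IsLocalRing.maximalIdeal P := by
      rw [← IsLocalRing.residue_eq_zero_iff]
      have h6 : (IsLocalRing.residue P (z - 1)) ^ p = 0 := by
        rw [map_sub, map_one, sub_pow_char, one_pow, ← map_pow]
        have h7 : z ^ p = 1 := Subtype.ext hζ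
        rw [h7, map_one, sub_self]
      exact pow_eq_zero_iff hp.ne_zero |>.mp h6
    rw [← ValuationSubring.coe_mem_nonunits_iff] at h5
    exact h5
  obtain ⟨s, hs, hζs⟩ := FlatOrd.Unramified.exists_eq_mul_of_fixed P hp hP (ζ - 1)
    (fun σ hσ => by rw [map_sub, map_one, hcon σ hσ]) h2
  exact hζ1 (FlatOrd.Key.root_eq_one P hp hp2 hP hs (by rw [← hζs]; ring) hζ)

/-- The span of the roots of units over the inertia field. -/
theorem mem_span_of_fixed (hp : p.Prime) (hP : P.LiesOverPrime p) {w : Qbar}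
    (h : ∀ τ ∈ P.inertiaSubgroupIn ℚ, (∀ x, Root P p x → τ x = x) → τ w = w) :
    w ∈ Submodule.span (IntermediateField.fixedField (P.inertiaSubgroupIn ℚ)) {x | Root P p x} := by
  set K0 := IntermediateField.fixedField (P.inertiaSubgroupIn ℚ) with hK0
  have hmemK0 : ∀ x, x ∈ K0 ↔ Fix P x := fun x =>
    ⟨fun hx σ hσ => hx ⟨σ, hσ⟩, fun hx σ => hx σ.1 σ.2⟩
  let B : Submonoid Qbar :=
    { carrier := {x | Root P p x}
      mul_mem' := fun hx hy => hx.mul hy
      one_mem' := root_one }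
  let E : IntermediateField K0 Qbar := IntermediateField.adjoin K0 (B : Set Qbar)
  let E' : IntermediateField ℚ Qbar := E.restrictScalars ℚ
  have hwE : w ∈ E' := by
    rw [← InfiniteGalois.fixedField_fixingSubgroup E']
    rintro ⟨τ, hτ⟩
    rw [IntermediateField.mem_fixingSubgroup_iff] at hτ
    refine h τ (mem_inertia_of_fix hp hP τ fun x hx => hτ x ?_) fun x hx => hτ x ?_
    · exact E.algebraMap_mem ⟨x, (hmemK0 x).mpr hx⟩
    · exact IntermediateField.subset_adjoin K0 _ hx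
  have halg : Algebra.IsAlgebraic K0 Qbar := Algebra.IsAlgebraic.tower_top (K := ℚ) K0
  have h1 : E.toSubalgebra = Algebra.adjoin K0 (B : Set Qbar) :=
    IntermediateField.adjoin_toSubalgebra_of_isAlgebraic
      fun x _ => Algebra.IsAlgebraic.isAlgebraic x
  have h2 : w ∈ Algebra.adjoin K0 (B : Set Qbar) := by
    rw [← h1]
    exact hwE
  rw [← Subalgebra.mem_toSubmodule, Algebra.adjoin_eq_span, Submonoid.closure_eq] at h2
  exact h2

/-- The group of inertia elements fixing all roots of unity of `p`-power order. -/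
def inertiaMu (P : ValuationSubring Qbar) (p : ℕ) : Subgroup GQ where
  carrier := {σ | σ ∈ P.inertiaSubgroupIn ℚ ∧ ∀ (n : ℕ) (x : Qbar), x ^ p ^ n = 1 → σ x = x}
  mul_mem' := fun {a b} ha hb => ⟨mul_mem ha.1 hb.1, fun n x hx => by
    rw [AlgEquiv.mul_apply, hb.2 n x hx, ha.2 n x hx]⟩
  one_mem' := ⟨one_mem _, fun _ _ _ => rfl⟩
  inv_mem' := fun {a} ha => ⟨inv_mem ha.1, fun n x hx => by
    have h := ha.2 n x hx
    show a.symm x = x
    conv_lhs => rw [← h]
    exact a.symm_apply_apply x⟩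

/-- The Kummer character of `w`. -/
noncomputable def kchar (w : Qbar) (hw0 : w ≠ 0) {n : ℕ} (hw : Fix P (w ^ p ^ n)) :
    inertiaMu P p →* Qbar where
  toFun σ := (σ : GQ) w / w
  map_one' := by
    show w / w = 1
    exact div_self hw0
  map_mul' σ τ := by
    have h1 : ((τ : GQ) w / w) ^ p ^ n = 1 := by
      rw [div_pow, ← map_pow, hw τ τ.2.1, div_self (pow_ne_zero _ hw0)]
    have h2 := σ.2.2 n _ h1
    show ((σ : GQ) * (τ : GQ)) w / w = _
    rw [AlgEquiv.mul_apply]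
    rw [map_div₀] at h2
    have h3 : (σ : GQ) w ≠ 0 := by rwa [Ne, EmbeddingLike.map_eq_zero_iff]
    rw [div_eq_iff h3] at h2
    rw [h2]
    field_simp

/-- **Kummer theory**: an element in the span of the roots of units is the product of a root of a
unit and an element fixed by the inertia elements fixing the roots of unity. -/
theorem exists_root_of_mem_span {w : Qbar} (hw0 : w ≠ 0) {n : ℕ} (hw : Fix P (w ^ p ^ n))
    (h : w ∈ Submodule.span (IntermediateField.fixedField (P.inertiaSubgroupIn ℚ))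
      {x | Root P p x}) :
    ∃ b, Root P p b ∧ ∀ σ ∈ inertiaMu P p, σ (w / b) = w / b := by
  classical
  set K0 := IntermediateField.fixedField (P.inertiaSubgroupIn ℚ) with hK0
  let S : Set (inertiaMu P p →* Qbar) :=
    {χ | ∃ b, Root P p b ∧ ∀ σ : inertiaMu P p, χ σ = (σ : GQ) b / b}
  let T : Submodule Qbar (inertiaMu P p → Qbar) :=
    Submodule.span Qbar ((fun χ : inertiaMu P p →* Qbar => (χ : inertiaMu P p → Qbar)) '' S)
  have key : ∀ w ∈ Submodule.span K0 {x | Root P p x},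
      (fun σ : inertiaMu P p => (σ : GQ) w) ∈ T := by
    intro w hw
    induction hw using Submodule.span_induction with
    | mem b hb =>
      obtain ⟨hb0, m, hm, -⟩ := id hb
      have h1 : (fun σ : inertiaMu P p => (σ : GQ) b) =
          b • (kchar b hb0 hm : inertiaMu P p → Qbar) := by
        funext σ
        show (σ : GQ) b = b * ((σ : GQ) b / b)
        rw [mul_div_cancel₀ _ hb0]
      rw [h1]
      exact T.smul_mem _ (Submodule.subset_span ⟨_, ⟨b, hb, fun σ => rfl⟩, rfl⟩)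
    | zero =>
      have h1 : (fun σ : inertiaMu P p => (σ : GQ) (0 : Qbar)) = 0 := by
        funext σ; exact map_zero _
      rw [h1]
      exact T.zero_mem
    | add x y _ _ hx hy =>
      have h1 : (fun σ : inertiaMu P p => (σ : GQ) (x + y)) =
        (fun σ : inertiaMu P p => (σ : GQ) x) + (fun σ : inertiaMu P p => (σ : GQ) y) := by
        funext σ; exact map_add _ _ _
      rw [h1]
      exact T.add_mem hx hy
    | smul a x _ hx =>
      have h1 : (fun σ : inertiaMu P p => (σ : GQ) (a • x)) =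
        (a : Qbar) • (fun σ : inertiaMu P p => (σ : GQ) x) := by
        funext σ
        show (σ : GQ) ((a : Qbar) * x) = (a : Qbar) * _
        rw [map_mul]
        congr 1
        exact a.2 ⟨σ, σ.2.1⟩
      rw [h1]
      exact T.smul_mem _ hx
  have h1 := key w h
  have h2 : ((kchar w hw0 hw : inertiaMu P p →* Qbar) : inertiaMu P p → Qbar) ∈ T := by
    have h3 : ((kchar w hw0 hw : inertiaMu P p →* Qbar) : inertiaMu P p → Qbar) =
        w⁻¹ • (fun σ : inertiaMu P p => (σ : GQ) w) := by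
      funext σ
      show (σ : GQ) w / w = w⁻¹ * (σ : GQ) w
      rw [div_eq_mul_inv, mul_comm]
    rw [h3]
    exact T.smul_mem _ h1
  have hli := linearIndependent_monoidHom (inertiaMu P p) Qbar
  have h3 : kchar w hw0 hw ∈ S := by
    by_contra hcon
    exact hli.notMem_span_image hcon h2
  obtain ⟨b, hb, hχ⟩ := h3
  refine ⟨b, hb, fun σ hσ => ?_⟩
  have h4 : σ w / w = σ b / b := hχ ⟨σ, hσ⟩
  have hσb : σ b ≠ 0 := by rw [Ne, EmbeddingLike.map_eq_zero_iff]; exact hb.1
  have hb0 := hb.1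
  rw [map_div₀]
  rw [div_eq_div_iff hw0 hb0] at h4
  rw [div_eq_div_iff hσb hb0]
  rw [h4, mul_comm]

/-- The action of an automorphism on the roots of unity of order dividing `p ^ N`. -/
theorem exists_pow_eq (hp : p.Prime) (N : ℕ) (σ : GQ) : ∃ a : ℕ, 0 < a ∧ a.Coprime p ∧
    ∀ x : Qbar, x ^ p ^ N = 1 → σ x = x ^ a := by
  have hne : NeZero ((p ^ N : ℕ) : Qbar) :=
    ⟨by exact_mod_cast pow_ne_zero N hp.ne_zero⟩
  have hne' : NeZero (p ^ N) := ⟨pow_ne_zero N hp.ne_zero⟩
  obtain ⟨ζ, hζ⟩ := HasEnoughRootsOfUnity.exists_primitiveRoot Qbar (p ^ N)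
  have hpos : 0 < p ^ N := pow_pos hp.pos N
  have h1 : (σ ζ) ^ p ^ N = 1 := by rw [← map_pow, hζ.pow_eq_one, map_one]
  obtain ⟨a, ha, ha'⟩ := hζ.eq_pow_of_pow_eq_one h1
  rcases Nat.eq_zero_or_pos N with rfl | hN
  · refine ⟨1, one_pos, Nat.coprime_one_left p, fun x hx => ?_⟩
    rw [pow_zero, pow_one] at hx
    rw [hx, map_one, one_pow]
  · have hcop : a.Coprime (p ^ N) := by
      have h2 : IsPrimitiveRoot (ζ ^ a) (p ^ N) := by
        rw [ha']
        exact hζ.map_of_injective (f := (σ : Qbar →* Qbar)) σ.injective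
      exact (hζ.pow_iff_coprime hpos a).mp h2
    have hcop' : a.Coprime p := Nat.Coprime.coprime_dvd_right (dvd_pow_self p hN.ne') hcop
    refine ⟨a, ?_, hcop', fun x hx => ?_⟩
    · rcases Nat.eq_zero_or_pos a with rfl | h
      · rw [Nat.coprime_zero_left] at hcop'
        exact absurd hcop' hp.one_lt.ne'
      · exact h
    · obtain ⟨i, hi, rfl⟩ := hζ.eq_pow_of_pow_eq_one hx
      rw [map_pow, ← ha', ← pow_mul, ← pow_mul, mul_comm]

/-- **Existence of `τ`.** -/
theorem exists_tau (hp : p.Prime) (hp2 : p ≠ 2) (hP : P.LiesOverPrime p) :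
    ∃ τ ∈ P.inertiaSubgroupIn ℚ, (∀ x, Root P p x → τ x = x) ∧
      ∀ x : Qbar, x ^ p = p → τ x ≠ x := by
  by_contra hcon
  push Not at hcon
  have hp0 : (p : Qbar) ≠ 0 := by exact_mod_cast hp.ne_zero
  obtain ⟨w, hw⟩ := IsAlgClosed.exists_pow_nat_eq (p : Qbar) hp.pos
  have hw0 : w ≠ 0 := by
    rintro rfl
    rw [zero_pow hp.ne_zero] at hw
    exact hp0 hw.symm
  have hwfix : Fix P (w ^ p ^ 1) := by
    rw [pow_one, hw]
    exact fix_natCast p
  -- `w` is fixed by all `τ` fixing the roots of units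
  have h1 : ∀ τ ∈ P.inertiaSubgroupIn ℚ, (∀ x, Root P p x → τ x = x) → τ w = w := by
    intro τ hτ hτ'
    obtain ⟨x, hx, hxτ⟩ := hcon τ hτ hτ'
    have hx0 : x ≠ 0 := by
      rintro rfl
      rw [zero_pow hp.ne_zero] at hx
      exact hp0 hx.symm
    have h2 : (w / x) ^ p ^ 1 = 1 := by
      rw [pow_one, div_pow, hw, hx, div_self hp0]
    have h3 := hτ' _ (root_of_pow_eq_one hp h2)
    rw [map_div₀, hxτ] at h3
    field_simp at h3
    exact h3
  obtain ⟨b, hb, hz⟩ := exists_root_of_mem_span hw0 hwfix (mem_span_of_fixed hp hP h1)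
  obtain ⟨hb0, n, hbn, hbP, hbP'⟩ := hb
  set z := w / b with hzdef
  have hz0 : z ≠ 0 := div_ne_zero hw0 hb0
  have hbval : P.valuation b = 1 := valuation_eq_one hb0 hbP hbP'
  have hzval : P.valuation z ^ p = P.valuation (p : Qbar) := by
    rw [hzdef, map_div₀, hbval, div_one, ← map_pow, hw]
  -- `z ^ p ^ N` is fixed
  set N := n + 1 with hN
  have hzfix : Fix P (z ^ p ^ N) := by
    have e1 : z ^ p ^ N = (w ^ p ^ 1) ^ p ^ n / (b ^ p ^ n) ^ p := by
      rw [hzdef, div_pow]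
      congr 1
      · rw [← pow_mul, ← pow_add, add_comm 1 n]
      · rw [← pow_mul, ← pow_succ]
    rw [e1]
    exact (hwfix.pow _).div (hbn.pow _)
  have hfixinv : ∀ (m : ℕ) (x : Qbar), x ^ p ^ m = 1 → x ≠ 0 := by
    rintro m x hx rfl
    rw [zero_pow (pow_ne_zero _ hp.ne_zero)] at hx
    exact zero_ne_one hx
  -- an inertia element moving the roots of unity of order `p`
  have hne : NeZero ((p : ℕ) : Qbar) := ⟨hp0⟩
  have hne' : NeZero p := ⟨hp.ne_zero⟩
  obtain ⟨ζ, hζ⟩ := HasEnoughRootsOfUnity.exists_primitiveRoot Qbar p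
  obtain ⟨g₀, hg₀, hg₀ζ⟩ := exists_inertia_ne hp hp2 hP hζ.pow_eq_one (hζ.ne_one hp.one_lt)
  obtain ⟨a, ha0, hacop, ha⟩ := exists_pow_eq hp N g₀
  obtain ⟨a', rfl⟩ : ∃ a', a = a' + 1 := ⟨a - 1, by omega⟩
  have ha' : a'.Coprime (p ^ N) := by
    refine Nat.Coprime.pow_right N ((Nat.Prime.coprime_iff_not_dvd hp).mpr ?_).symm
    rintro ⟨m, rfl⟩
    apply hg₀ζ
    rw [ha ζ (by rw [hN, pow_succ, mul_comm, pow_mul, hζ.pow_eq_one, one_pow]), pow_succ, pow_mul,
      hζ.pow_eq_one, one_pow, one_mul]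
  obtain ⟨m, hm⟩ : ∃ m : ℕ, ∀ x : Qbar, x ^ p ^ N = 1 → (x ^ a') ^ m = x := by
    obtain ⟨m, hm⟩ := Nat.exists_mul_mod_eq_one_of_coprime ha' (Nat.one_lt_pow (by omega) hp.one_lt)
    refine ⟨m, fun x hx => ?_⟩
    rw [← pow_mul, ← Nat.div_add_mod (a' * m) (p ^ N), hm.2, pow_add, pow_mul, hx, one_pow, one_mul,
      pow_one]
  -- the cocycle
  have hc : ∀ g ∈ P.inertiaSubgroupIn ℚ, (g z / z) ^ p ^ N = 1 := by
    intro g hg
    rw [div_pow, ← map_pow, hzfix g hg, div_self (pow_ne_zero _ hz0)]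
  set c₀ := g₀ z / z with hc₀
  have hc₀1 := hc g₀ hg₀
  have hg₀z : g₀ z = c₀ * z := by rw [hc₀, div_mul_cancel₀ _ hz0]
  have key : ∀ g ∈ P.inertiaSubgroupIn ℚ, (g z / z) ^ a' = g c₀ / c₀ := by
    intro g hg
    set c := g z / z with hcdef
    have hc1 := hc g hg
    have hgz : g z = c * z := by rw [hcdef, div_mul_cancel₀ _ hz0]
    have hcomm : g (g₀ z) = g₀ (g z) := by
      have h2 : (g₀ * g)⁻¹ * (g * g₀) ∈ inertiaMu P p := by
        refine ⟨mul_mem (inv_mem (mul_mem hg₀ hg)) (mul_mem hg hg₀), fun k x hx => ?_⟩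
        obtain ⟨i, -, -, hi⟩ := exists_pow_eq hp k g
        obtain ⟨j, -, -, hj⟩ := exists_pow_eq hp k g₀
        have h3 : g (g₀ x) = g₀ (g x) := by
          rw [hj x hx, map_pow, hi x hx, map_pow, hj x hx, ← pow_mul, ← pow_mul, mul_comm]
        rw [AlgEquiv.mul_apply, AlgEquiv.mul_apply, h3]
        exact (g₀ * g).symm_apply_apply x
      have h4 := hz _ h2
      rw [AlgEquiv.mul_apply, AlgEquiv.mul_apply] at h4
      have h5 : (g₀ * g) ((g₀ * g)⁻¹ (g (g₀ z))) = g (g₀ z) := (g₀ * g).apply_symm_apply _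
      rw [h4] at h5
      exact h5.symm
    rw [hg₀z, hgz, map_mul, map_mul, hg₀z, hgz, ha c hc1] at hcomm
    have hc0 := hfixinv N c hc1
    have hc₀0 := hfixinv N c₀ hc₀1
    rw [eq_div_iff hc₀0]
    have h6 : c * z * (c ^ a' * c₀) = c * z * (g c₀) := by
      rw [pow_succ] at hcomm
      linear_combination -hcomm
    exact mul_left_cancel₀ (mul_ne_zero hc0 hz0) h6
  have hc₀0 := hfixinv N c₀ hc₀1
  set ξ := c₀ ^ m with hξ
  have hξ1 : ξ ^ p ^ N = 1 := by rw [hξ, ← pow_mul, mul_comm, pow_mul, hc₀1, one_pow]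
  have hξ0 := hfixinv N ξ hξ1
  have hz'fix : Fix P (z / ξ) := by
    intro g hg
    have h2 := key g hg
    have h3 := hm _ (hc g hg)
    rw [h2, div_pow, ← map_pow] at h3
    have h4 : g ξ ≠ 0 := by rwa [Ne, EmbeddingLike.map_eq_zero_iff]
    rw [map_div₀, div_eq_div_iff h4 hξ0]
    rw [← hξ, div_eq_div_iff hξ0 hz0] at h3
    rw [← h3, mul_comm]
  have hz'val : P.valuation (z / ξ) ^ p = P.valuation (p : Qbar) := by
    rw [map_div₀, v_eq_one_of_pow (pow_ne_zero N hp.ne_zero) hξ1, div_one, hzval]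
  have hlt : P.valuation (z / ξ) < 1 := by
    by_contra h
    push Not at h
    have h2 : (1 : P.ValueGroup) ≤ P.valuation (z / ξ) ^ p := one_le_pow₀ h
    rw [hz'val] at h2
    exact absurd (v_p_lt_one hP) (not_lt.mpr h2)
  obtain ⟨s, hs, hzs⟩ := FlatOrd.Unramified.exists_eq_mul_of_fixed P hp hP (z / ξ) hz'fix
    (by rw [ValuationSubring.mem_nonunits_iff]; exact hlt)
  have hle : P.valuation (z / ξ) ≤ P.valuation (p : Qbar) := by
    rw [hzs, map_mul]
    exact mul_le_of_le_one_right' ((P.valuation_le_one_iff s).mpr hs)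
  have hpv0 : P.valuation (p : Qbar) ≠ 0 := by rwa [Ne, map_eq_zero]
  have h5 : P.valuation (p : Qbar) ≤ P.valuation (p : Qbar) ^ p := by
    conv_lhs => rw [← hz'val]
    exact pow_le_pow_left' hle p
  have h6 : P.valuation (p : Qbar) ^ p < P.valuation (p : Qbar) := by
    have h7 := hp.two_le
    exact pow_lt_self_of_lt_one₀ (zero_lt_iff.mpr hpv0) (v_p_lt_one hP) (by omega)
  exact absurd h5 (not_le.mpr h6)

end Fermat.Agent.RT.PStep
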