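import Mathlib
import Fermat.Agent.QbarInst
import Fermat.Agent.Flat.Descent
import Fermat.Agent.RT.PStep.Tau

/-!
# Kummer theory for ordinary Galois modules; the flatness criterion
-/

set_option autoImplicit false

open Pointwise
open Fermat.Agent.FrobExists

namespace Fermat.Agent.RT.PStep

local notation "Qbar" => AlgebraicClosure ℚ
local notation "GQ" => (AlgebraicClosure ℚ ≃ₐ[ℚ] AlgebraicClosure ℚ)

variable {P : ValuationSubring Qbar} {p : ℕ}

/-- The defining properties of `τ`. -/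
structure IsTau (P : ValuationSubring Qbar) (p : ℕ) (τ : GQ) : Prop where
  mem : τ ∈ P.inertiaSubgroupIn ℚ
  fix : ∀ x, Root P p x → τ x = x
  move : ∀ x : Qbar, x ^ p = p → τ x ≠ x

theorem exists_isTau (hp : p.Prime) (hp2 : p ≠ 2) (hP : P.LiesOverPrime p) :
    ∃ τ, IsTau P p τ := by
  obtain ⟨τ, h1, h2, h3⟩ := exists_tau hp hp2 hP
  exact ⟨τ, h1, h2, h3⟩

theorem root_of_valuation {x : Qbar} (hx0 : x ≠ 0) {n : ℕ} (hx : Fix P (x ^ p ^ n))
    (hv : P.valuation x = 1) : Root P p x :=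
  ⟨hx0, n, hx, (mem_of_valuation_eq_one hv).1, (mem_of_valuation_eq_one hv).2⟩

theorem valuation_eq_one_of_pow (hp : p.Prime) {x : Qbar} {n : ℕ}
    (h : P.valuation x ^ p ^ n = 1) : P.valuation x = 1 := by
  have hn := pow_ne_zero n hp.ne_zero
  rcases lt_trichotomy (P.valuation x) 1 with h2 | h2 | h2
  · exact absurd h (pow_lt_one₀ zero_le h2 hn).ne
  · exact h2
  · exact absurd h (one_lt_pow₀ h2 hn).ne'

/-- `τ` detects whether the valuation of a Kummer generator is integral. -/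
theorem IsTau.exists_valuation_eq_one {τ : GQ} (hτ : IsTau P p τ) (hp : p.Prime)
    (hP : P.LiesOverPrime p) {x : Qbar} (hx0 : x ≠ 0) {n : ℕ} (hx : Fix P (x ^ p ^ n))
    (hτx : τ x = x) : ∃ j : ℤ, P.valuation (x * (p : Qbar) ^ j) = 1 := by
  have hp0 : (p : Qbar) ≠ 0 := by exact_mod_cast hp.ne_zero
  obtain ⟨k, u, hu0, hu, hu', hufix, hxk⟩ := exists_zpow_mul hp hP (pow_ne_zero _ hx0) hx
  have huv := valuation_eq_one hu0 hu hu'
  -- it suffices that `p ^ n ∣ k`
  suffices h : ((p ^ n : ℕ) : ℤ) ∣ k by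
    obtain ⟨j, rfl⟩ := h
    refine ⟨-j, valuation_eq_one_of_pow (n := n) hp ?_⟩
    have e1 : (x * (p : Qbar) ^ (-j)) ^ p ^ n = u := by
      rw [mul_pow, hxk, mul_comm ((p ^ n : ℕ) : ℤ) j, zpow_mul, zpow_natCast, mul_right_comm,
        ← mul_pow, ← zpow_add₀ hp0, add_neg_cancel, zpow_zero, one_pow, one_mul]
    rw [← map_pow, e1, huv]
  rcases Nat.eq_zero_or_pos n with rfl | hn
  · rw [pow_zero]; exact one_dvd k
  obtain ⟨n, rfl⟩ : ∃ m, n = m + 1 := ⟨n - 1, by omega⟩
  obtain ⟨w, hw⟩ := IsAlgClosed.exists_pow_nat_eq (p : Qbar) (pow_pos hp.pos (n + 1))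
  have hw0 : w ≠ 0 := by
    rintro rfl
    rw [zero_pow (pow_ne_zero _ hp.ne_zero)] at hw
    exact hp0 hw.symm
  have hy0 : x * w ^ (-k) ≠ 0 := mul_ne_zero hx0 (zpow_ne_zero _ hw0)
  have hyn : (x * w ^ (-k)) ^ p ^ (n + 1) = u := by
    rw [mul_pow, hxk, ← zpow_natCast (w ^ (-k)), ← zpow_mul, mul_comm (-k), zpow_mul, zpow_natCast,
      hw, mul_right_comm, ← zpow_add₀ hp0, add_neg_cancel, zpow_zero, one_mul]
  have hyroot : Root P p (x * w ^ (-k)) := by
    refine root_of_valuation (n := n + 1) hy0 (by rw [hyn]; exact hufix) ?_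
    refine valuation_eq_one_of_pow (n := n + 1) hp ?_
    rw [← map_pow, hyn, huv]
  have h1 := hτ.fix _ hyroot
  rw [map_mul, hτx, map_zpow₀] at h1
  have h2 := mul_left_cancel₀ hx0 h1
  -- the root of unity `τ w / w`
  set ζ := τ w / w with hζ
  have hζw : τ w = ζ * w := by rw [hζ, div_mul_cancel₀ _ hw0]
  have hζ1 : ζ ^ p ^ (n + 1) = 1 := by
    rw [hζ, div_pow, ← map_pow, hw, map_natCast, div_self hp0]
  have hζ2 : ¬ ζ ^ p ^ n = 1 := by
    intro h
    refine hτ.move (w ^ p ^ n) (by rw [← pow_mul, ← pow_succ, hw]) ?_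
    rw [map_pow, hζw, mul_pow, h, one_mul]
  have hord : orderOf ζ = p ^ (n + 1) := by
    have : Fact p.Prime := ⟨hp⟩
    exact orderOf_eq_prime_pow hζ2 hζ1
  have hζ0 : ζ ≠ 0 := by
    intro h
    rw [h, zero_pow (pow_ne_zero _ hp.ne_zero)] at hζ1
    exact zero_ne_one hζ1
  rw [hζw, mul_zpow] at h2
  have h3 : ζ ^ (-k) = 1 := by
    have h4 : w ^ (-k) ≠ 0 := zpow_ne_zero _ hw0
    exact mul_right_cancel₀ h4 (by rw [h2, one_mul])
  have h5 : (Units.mk0 ζ hζ0) ^ (-k) = 1 := by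
    ext
    push_cast
    exact h3
  have h6 := orderOf_dvd_iff_zpow_eq_one.mpr h5
  rw [← orderOf_units, Units.val_mk0, hord] at h6
  exact (dvd_neg.mp h6)

/-- Conjugates of `τ` by the decomposition group. -/
theorem IsTau.conj {τ : GQ} (hτ : IsTau P p τ) (hp : p.Prime)
    (hP : P.LiesOverPrime p) {φ : GQ} (hφ : φ ∈ P.decompositionSubgroup ℚ) {x : Qbar}
    (hx0 : x ≠ 0) {n : ℕ} (hx : Fix P (x ^ p ^ n)) {a : ℕ}
    (ha : ∀ μ : Qbar, μ ^ p ^ n = 1 → φ μ = μ ^ a) :
    (φ * τ * φ⁻¹) x = (τ ^ a) x := by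
  have hp0 : (p : Qbar) ≠ 0 := by exact_mod_cast hp.ne_zero
  obtain ⟨k, u, hu0, hu, hu', hufix, hxk⟩ := exists_zpow_mul hp hP (pow_ne_zero _ hx0) hx
  have hφ' : φ⁻¹ ∈ P.decompositionSubgroup ℚ := inv_mem hφ
  have hmemP : ∀ y ∈ P, φ⁻¹ y ∈ P := fun y hy =>
    Flat.Descent.apply_mem_of_mem_decomposition P hφ' hy
  have hφx0 : φ⁻¹ x ≠ 0 := by rwa [Ne, EmbeddingLike.map_eq_zero_iff]
  set w := φ⁻¹ x / x with hw
  have hw0 : w ≠ 0 := div_ne_zero hφx0 hx0
  have hwx : φ⁻¹ x = w * x := by rw [hw, div_mul_cancel₀ _ hx0]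
  have hwn : w ^ p ^ n = φ⁻¹ u / u := by
    rw [hw, div_pow, ← map_pow, hxk, map_mul, map_zpow₀, map_natCast,
      mul_div_mul_left _ _ (zpow_ne_zero _ hp0)]
  have hwfix : Fix P (w ^ p ^ n) := by
    rw [hwn]
    refine Fix.div (fun g hg => ?_) hufix
    have h1 : φ * g * φ⁻¹ ∈ P.inertiaSubgroupIn ℚ := by
      have := Flat.Descent.conj_mem_inertia P hφ' hg
      rwa [inv_inv] at this
    have h2 := hufix _ h1
    have h3 : g (φ⁻¹ u) = φ⁻¹ ((φ * g * φ⁻¹) u) := by
      rw [AlgEquiv.mul_apply, AlgEquiv.mul_apply]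
      exact (φ.symm_apply_apply _).symm
    rw [h3, h2]
  have hwv : P.valuation w = 1 := by
    refine valuation_eq_one_of_pow (n := n) hp ?_
    rw [← map_pow, hwn]
    have h1 : φ⁻¹ u ≠ 0 := by rwa [Ne, EmbeddingLike.map_eq_zero_iff]
    rw [map_div₀, valuation_eq_one hu0 hu hu', valuation_eq_one h1 (hmemP u hu)
      (by rw [← map_inv₀]; exact hmemP _ hu'), div_one]
  have hτw := hτ.fix w (root_of_valuation hw0 hwfix hwv)
  set c := τ x / x with hc
  have hcx : τ x = c * x := by rw [hc, div_mul_cancel₀ _ hx0]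
  have hc1 : c ^ p ^ n = 1 := by
    rw [hc, div_pow, ← map_pow, hx τ hτ.mem, div_self (pow_ne_zero _ hx0)]
  have h1 : (φ * τ * φ⁻¹) x = c ^ a * x := by
    rw [AlgEquiv.mul_apply, AlgEquiv.mul_apply, hwx, map_mul, hτw, hcx, ← mul_assoc, mul_comm w c,
      mul_assoc, ← hwx, map_mul, ha c hc1]
    congr 1
    exact φ.apply_symm_apply x
  have h2 : ∀ i : ℕ, (τ ^ i) x = c ^ i * x := by
    intro i
    induction i with
    | zero => rw [pow_zero, pow_zero, one_mul]; rfl
    | succ i ih =>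
      rw [pow_succ', AlgEquiv.mul_apply, ih, map_mul, map_pow,
        hτ.fix c (root_of_pow_eq_one hp hc1), hcx, pow_succ, mul_assoc]
  rw [h1, h2]

section modules

variable {M : Type} [AddCommGroup M] (act : GQ →* AddMonoid.End M)

/-- There are enough characters. -/
theorem exists_addChar [Finite M] {m : M} (hm : m ≠ 0) : ∃ ψ : AddChar M Qbar, ψ m ≠ 1 := by
  have hne : NeZero (Monoid.exponent (Multiplicative M)) :=
    ⟨Monoid.exponent_ne_zero_of_finite⟩
  have hne' : NeZero ((Monoid.exponent (Multiplicative M) : ℕ) : Qbar) :=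
    ⟨by exact_mod_cast Monoid.exponent_ne_zero_of_finite⟩
  obtain ⟨φ, hφ⟩ := CommGroup.exists_apply_ne_one_of_hasEnoughRootsOfUnity (Multiplicative M) Qbar
    (a := Multiplicative.ofAdd m) (by
      intro h
      exact hm (Multiplicative.ofAdd.injective h))
  refine ⟨{ toFun := fun m => ((φ (Multiplicative.ofAdd m) : Qbarˣ) : Qbar)
            map_zero_eq_one' := by
              show ((φ 1 : Qbarˣ) : Qbar) = 1
              rw [map_one, Units.val_one]
            map_add_eq_mul' := fun a b => by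
              rw [ofAdd_add, map_mul, Units.val_mul] }, ?_⟩
  intro h
  apply hφ
  ext
  exact h

/-- Ordinary modules: inertia acts trivially on `M / L` and by the cyclotomic character on `L`,
which is killed by `p ^ n`. -/
structure OrdMod (P : ValuationSubring Qbar) (p : ℕ) (n : ℕ) (L : AddSubgroup M) : Prop where
  kill : ∀ l ∈ L, p ^ n • l = 0
  quo : ∀ σ ∈ P.inertiaSubgroupIn ℚ, ∀ m, act σ m - m ∈ L
  cyc : ∀ σ ∈ P.inertiaSubgroupIn ℚ, ∀ a : ℕ, (∀ x : Qbar, x ^ p ^ n = 1 → σ x = x ^ a) →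
    ∀ l ∈ L, act σ l = a • l
  smooth : ∀ m : M, ∃ E : IntermediateField ℚ Qbar, FiniteDimensional ℚ E ∧
    ∀ σ : GQ, (∀ x ∈ E, σ x = x) → act σ m = m

variable {act} {n : ℕ} {L : AddSubgroup M}

theorem addChar_ne_zero (ψ : AddChar M Qbar) (m : M) : ψ m ≠ 0 := by
  intro h
  have h1 : ψ (m + -m) = 1 := by rw [add_neg_cancel, ψ.map_zero_eq_one]
  rw [ψ.map_add_eq_mul, h, zero_mul] at h1
  exact zero_ne_one h1

/-- **Kummer generators.** -/
theorem OrdMod.exists_kummer (h : OrdMod act P p n L) (hp : p.Prime) (ψ : AddChar M Qbar) (m : M) :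
    ∃ β : Qbar, β ≠ 0 ∧ Fix P (β ^ p ^ n) ∧
      ∀ σ ∈ P.inertiaSubgroupIn ℚ, σ β = ψ (act σ m - m) * β := by
  have hroot : ∀ l ∈ L, ψ l ^ p ^ n = 1 := fun l hl => by
    rw [← AddChar.map_nsmul_eq_pow, h.kill l hl, ψ.map_zero_eq_one]
  obtain ⟨E, hE, hE'⟩ := h.smooth m
  obtain ⟨β, hβ0, hβ⟩ := hilbert90 (P.inertiaSubgroupIn ℚ) (fun g => ψ (act g m - m))
    (fun g hg => addChar_ne_zero ψ _)
    (by
      intro g hg k hk
      obtain ⟨a, -, -, ha⟩ := exists_pow_eq hp n g
      have h1 : act (g * k) m - m = (act g m - m) + act g (act k m - m) := by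
        rw [map_mul, map_sub]
        show act g (act k m) - m = _
        abel
      show ψ (act (g * k) m - m) = ψ (act g m - m) * g (ψ (act k m - m))
      rw [h1, ψ.map_add_eq_mul, ha _ (hroot _ (h.quo k hk m)),
        h.cyc g hg a ha _ (h.quo k hk m), AddChar.map_nsmul_eq_pow])
    E
    (by
      intro g hg hgE
      show ψ (act g m - m) = 1
      rw [hE' g hgE, sub_self, ψ.map_zero_eq_one])
  refine ⟨β, hβ0, fun g hg => ?_, hβ⟩
  rw [map_pow, hβ g hg, mul_pow, hroot _ (h.quo g hg m), one_mul]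

/-- Two inertia elements with the same action on the Kummer generators act in the same way. -/
theorem OrdMod.act_eq [Finite M] (h : OrdMod act P p n L) (hp : p.Prime) {σ₁ σ₂ : GQ}
    (h₁ : σ₁ ∈ P.inertiaSubgroupIn ℚ) (h₂ : σ₂ ∈ P.inertiaSubgroupIn ℚ)
    (heq : ∀ x : Qbar, x ≠ 0 → Fix P (x ^ p ^ n) → σ₁ x = σ₂ x) (m : M) :
    act σ₁ m = act σ₂ m := by
  by_contra hne
  obtain ⟨ψ, hψ⟩ := exists_addChar (sub_ne_zero.mpr hne)
  obtain ⟨β, hβ0, hβ, hβ'⟩ := h.exists_kummer hp ψ m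
  apply hψ
  have h3 := heq β hβ0 hβ
  rw [hβ' σ₁ h₁, hβ' σ₂ h₂] at h3
  have h4 := mul_right_cancel₀ hβ0 h3
  have h5 : ψ (act σ₁ m - m) = ψ (act σ₁ m - act σ₂ m) * ψ (act σ₂ m - m) := by
    rw [← ψ.map_add_eq_mul]
    congr 1
    abel
  rw [h4] at h5
  exact (mul_right_cancel₀ (addChar_ne_zero ψ _) (by rw [one_mul]; exact h5)).symm

/-- The action of a conjugate of `τ` on an ordinary module. -/
theorem OrdMod.act_conj_tau [Finite M] (h : OrdMod act P p n L) (hp : p.Prime)
    (hP : P.LiesOverPrime p) {τ : GQ} (hτ : IsTau P p τ) {φ : GQ}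
    (hφ : φ ∈ P.decompositionSubgroup ℚ) {a : ℕ}
    (ha : ∀ μ : Qbar, μ ^ p ^ n = 1 → φ μ = μ ^ a) (m : M) :
    act (φ * τ * φ⁻¹) m = act (τ ^ a) m := by
  have h1 := Flat.Descent.conj_mem_inertia P (inv_mem hφ) hτ.mem
  rw [inv_inv] at h1
  exact h.act_eq hp h1 (pow_mem hτ.mem a) (fun _ hx0 hx => hτ.conj hp hP hφ hx0 hx ha) m

/-- **Flatness criterion**: an ordinary module on which `τ` acts trivially is the module of points
of a finite flat group scheme over `ℤ_(p)`. -/
theorem OrdMod.isFlatModel [Finite M] (h : OrdMod act P p n L) (hp : p.Prime)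
    (hP : P.LiesOverPrime p) {τ : GQ} (hτ : IsTau P p τ) (hτM : ∀ m, act τ m = m) :
    Flat.IsFlatModel p M (fun σ m => act σ m) := by
  classical
  have : Fact p.Prime := ⟨hp⟩
  have hp0 : (p : Qbar) ≠ 0 := by exact_mod_cast hp.ne_zero
  -- unit Kummer generators
  have hunit : ∀ (ψ : AddChar M Qbar) (m : M), ∃ β : Qbar, P.valuation β = 1 ∧
      ∀ σ ∈ P.inertiaSubgroupIn ℚ, σ β = ψ (act σ m - m) * β := by
    intro ψ m
    obtain ⟨β, hβ0, hβ, hβ'⟩ := h.exists_kummer hp ψ m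
    have h1 : τ β = β := by
      rw [hβ' τ hτ.mem, hτM, sub_self, ψ.map_zero_eq_one, one_mul]
    obtain ⟨j, hj⟩ := hτ.exists_valuation_eq_one hp hP hβ0 hβ h1
    refine ⟨β * (p : Qbar) ^ j, hj, fun σ hσ => ?_⟩
    rw [map_mul, map_zpow₀, map_natCast, hβ' σ hσ, mul_assoc]
  choose β hβv hβ using hunit
  have hβ0 : ∀ ψ m, β ψ m ≠ 0 := fun ψ m h0 => by
    have := hβv ψ m
    rw [h0, map_zero] at this
    exact zero_ne_one this
  -- representatives
  let q : M → M ⧸ L := QuotientAddGroup.mk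
  let rep : M ⧸ L → M := Quotient.out
  have hrep : ∀ y, q (rep y) = y := fun y => Quotient.out_eq' y
  have hL : ∀ m, m - rep (q m) ∈ L := fun m => by
    have h1 : q (rep (q m)) = q m := hrep _
    have h2 := QuotientAddGroup.eq.mp h1
    rwa [neg_add_eq_sub] at h2
  -- the functions
  let f : AddChar M Qbar → M → Qbar := fun ψ t => ψ (t - rep (q t)) * β ψ (rep (q t))
  let e : M ⧸ L → M → Qbar := fun y t => if q t = y then 1 else 0
  have hroot : ∀ (ψ : AddChar M Qbar), ∀ l ∈ L, ψ l ^ p ^ n = 1 := fun ψ l hl => by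
    rw [← AddChar.map_nsmul_eq_pow, h.kill l hl, ψ.map_zero_eq_one]
  have hf0 : ∀ ψ t, f ψ t ≠ 0 := fun ψ t => mul_ne_zero (addChar_ne_zero _ _) (hβ0 _ _)
  have hqI : ∀ σ ∈ P.inertiaSubgroupIn ℚ, ∀ t, q (act σ t) = q t := by
    intro σ hσ t
    have h1 := h.quo σ hσ t
    rw [← sub_eq_zero]
    show ((act σ t : M) : M ⧸ L) - (t : M ⧸ L) = 0
    rw [← QuotientAddGroup.mk_sub]
    exact (QuotientAddGroup.eq_zero_iff _).mpr h1
  have hfI : ∀ ψ, ∀ σ ∈ P.inertiaSubgroupIn ℚ, ∀ t, f ψ (act σ t) = σ (f ψ t) := by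
    intro ψ σ hσ t
    show ψ (act σ t - rep (q (act σ t))) * β ψ (rep (q (act σ t))) =
      σ (ψ (t - rep (q t)) * β ψ (rep (q t)))
    rw [hqI σ hσ t, map_mul, hβ ψ _ σ hσ, ← mul_assoc]
    congr 1
    obtain ⟨a, -, -, ha⟩ := exists_pow_eq hp n σ
    rw [ha _ (hroot ψ _ (hL t)), ← AddChar.map_nsmul_eq_pow, ← h.cyc σ hσ a ha _ (hL t),
      ← ψ.map_add_eq_mul, map_sub (act σ) t (rep (q t))]
    congr 1
    abel
  have heI : ∀ y, ∀ σ ∈ P.inertiaSubgroupIn ℚ, ∀ t, e y (act σ t) = σ (e y t) := by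
    intro y σ hσ t
    show (if q (act σ t) = y then (1 : Qbar) else 0) = σ (if q t = y then (1 : Qbar) else 0)
    rw [hqI σ hσ t]
    split_ifs
    · rw [map_one]
    · rw [map_zero]
  have hfv : ∀ ψ t, P.valuation (f ψ t) = 1 := by
    intro ψ t
    show P.valuation (ψ (t - rep (q t)) * β ψ (rep (q t))) = 1
    rw [map_mul, hβv, mul_one]
    exact v_eq_one_of_pow (pow_ne_zero n hp.ne_zero) (hroot ψ _ (hL t))
  -- separating characters
  choose! χ hχ using fun (m : M) (hm : m ≠ 0) => exists_addChar hm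
  let Φ : Set (M → Qbar) := Set.range (fun m : M => f (χ m)) ∪ Set.range e
  have hfin : Φ.Finite := (Set.finite_range _).union (Set.finite_range _)
  refine Flat.isFlatModel_of_local_generators p P hP (fun σ m => act σ m) (fun t => ?_)
    (fun σ τ t => ?_) (fun σ s t => map_add _ _ _) h.smooth Φ hfin ?_ ?_ ?_ ?_
  · show act 1 t = t
    rw [map_one]; rfl
  · show act (σ * τ) t = act σ (act τ t)
    rw [map_mul]; rfl
  · rintro _ (⟨m, rfl⟩ | ⟨y, rfl⟩) t
    · exact (mem_of_valuation_eq_one (hfv _ t)).1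
    · show (if q t = y then (1 : Qbar) else 0) ∈ P
      split_ifs
      · exact P.one_mem
      · exact P.zero_mem
  · rintro _ (⟨m, rfl⟩ | ⟨y, rfl⟩) σ hσ t
    · exact hfI _ σ hσ t
    · exact heI y σ hσ t
  · -- separation of points
    intro s t hst
    have h1 : q s = q t := by
      have h2 := hst (e (q t)) (Or.inr ⟨_, rfl⟩)
      by_contra hne
      have h3 : (if q s = q t then (1 : Qbar) else 0) = (if q t = q t then (1 : Qbar) else 0) := h2
      rw [if_neg hne, if_pos rfl] at h3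
      exact zero_ne_one h3
    by_contra hne
    have hne' : s - t ≠ 0 := sub_ne_zero.mpr hne
    apply hχ (s - t) hne'
    have h2 : f (χ (s - t)) s = f (χ (s - t)) t := hst _ (Or.inl ⟨s - t, rfl⟩)
    have h3 : χ (s - t) (s - rep (q s)) * β (χ (s - t)) (rep (q s)) =
      χ (s - t) (t - rep (q t)) * β (χ (s - t)) (rep (q t)) := h2
    rw [h1] at h3
    have h4 := mul_right_cancel₀ (hβ0 _ _) h3
    have h5 : χ (s - t) (s - rep (q t)) = χ (s - t) (s - t) * χ (s - t) (t - rep (q t)) := by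
      rw [← AddChar.map_add_eq_mul]
      congr 1
      abel
    rw [h4] at h5
    exact (mul_right_cancel₀ (addChar_ne_zero _ _) (by rw [one_mul]; exact h5)).symm
  · -- comultiplication
    have hadj : ∀ φ ∈ Φ, φ ∈ Algebra.adjoin P Φ := fun φ hφ => Algebra.subset_adjoin hφ
    have hqadd : ∀ s t, q (s + t) = q s + q t := fun s t => rfl
    rintro _ (⟨m, rfl⟩ | ⟨y, rfl⟩)
    · -- the functions `f ψ`
      set ψ := χ m with hψ
      -- the cocycle
      let c : M ⧸ L → M ⧸ L → Qbar := fun y z =>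
        ψ (rep y + rep z - rep (y + z)) * β ψ (rep (y + z)) / (β ψ (rep y) * β ψ (rep z))
      have hcL : ∀ y z, rep y + rep z - rep (y + z) ∈ L := by
        intro y z
        have h1 : q (rep (y + z)) = q (rep y + rep z) := by
          rw [hqadd, hrep, hrep, hrep]
        have h2 := QuotientAddGroup.eq.mp h1
        rwa [neg_add_eq_sub] at h2
      have hcP : ∀ y z, c y z ∈ P := by
        intro y z
        refine (mem_of_valuation_eq_one ?_).1
        show P.valuation (ψ (rep y + rep z - rep (y + z)) * β ψ (rep (y + z)) /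
          (β ψ (rep y) * β ψ (rep z))) = 1
        rw [map_div₀, map_mul, map_mul, hβv, hβv, hβv, mul_one, mul_one, div_one]
        exact v_eq_one_of_pow (pow_ne_zero n hp.ne_zero) (hroot ψ _ (hcL y z))
      have hfadd : ∀ s t, f ψ (s + t) = c (q s) (q t) * f ψ s * f ψ t := by
        intro s t
        show ψ (s + t - rep (q (s + t))) * β ψ (rep (q (s + t))) =
          ψ (rep (q s) + rep (q t) - rep (q s + q t)) * β ψ (rep (q s + q t)) /
          (β ψ (rep (q s)) * β ψ (rep (q t))) * (ψ (s - rep (q s)) * β ψ (rep (q s))) *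
          (ψ (t - rep (q t)) * β ψ (rep (q t)))
        rw [hqadd]
        have h1 : ψ (s + t - rep (q s + q t)) = ψ (rep (q s) + rep (q t) - rep (q s + q t)) *
            ψ (s - rep (q s)) * ψ (t - rep (q t)) := by
          rw [← ψ.map_add_eq_mul, ← ψ.map_add_eq_mul]
          congr 1
          abel
        rw [h1]
        have h2 := hβ0 ψ (rep (q s))
        have h3 := hβ0 ψ (rep (q t))
        field_simp
      let _ : Fintype ((M ⧸ L) × (M ⧸ L)) := Fintype.ofFinite _
      let E := Fintype.equivFin ((M ⧸ L) × (M ⧸ L))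
      refine ⟨_, fun i => (fun t => c (E.symm i).1 (E.symm i).2 * e (E.symm i).1 t * f ψ t),
        fun i => (fun t => e (E.symm i).2 t * f ψ t), fun i => ?_, fun i => ?_, fun s t => ?_⟩
      · have h1 : (fun t => c (E.symm i).1 (E.symm i).2 * e (E.symm i).1 t * f ψ t) =
          (⟨_, hcP (E.symm i).1 (E.symm i).2⟩ : P) • (e (E.symm i).1 * f ψ) := by
          funext t
          show _ = c (E.symm i).1 (E.symm i).2 * (e (E.symm i).1 t * f ψ t)
          rw [mul_assoc]
        show (fun t => c (E.symm i).1 (E.symm i).2 * e (E.symm i).1 t * f ψ t) ∈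
          Algebra.adjoin P Φ
        rw [h1]
        exact Subalgebra.smul_mem _ (mul_mem (hadj _ (Or.inr ⟨_, rfl⟩)) (hadj _ (Or.inl ⟨_, rfl⟩))) _
      · exact mul_mem (hadj _ (Or.inr ⟨_, rfl⟩)) (hadj _ (Or.inl ⟨_, rfl⟩))
      · show f ψ (s + t) = ∑ i, c (E.symm i).1 (E.symm i).2 * e (E.symm i).1 s * f ψ s *
          (e (E.symm i).2 t * f ψ t)
        rw [Finset.sum_eq_single (E (q s, q t))]
        · rw [Equiv.symm_apply_apply, hfadd]
          show _ = c (q s) (q t) * (if q s = q s then (1 : Qbar) else 0) * f ψ s *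
            ((if q t = q t then (1 : Qbar) else 0) * f ψ t)
          rw [if_pos rfl, if_pos rfl, mul_one, one_mul]
        · intro i _ hi
          show c (E.symm i).1 (E.symm i).2 * (if q s = (E.symm i).1 then (1 : Qbar) else 0) *
            f ψ s * ((if q t = (E.symm i).2 then (1 : Qbar) else 0) * f ψ t) = 0
          by_cases h1 : q s = (E.symm i).1
          · by_cases h2 : q t = (E.symm i).2
            · exfalso
              apply hi
              rw [h1, h2, Prod.mk.eta, Equiv.apply_symm_apply]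
            · rw [if_neg h2, zero_mul, mul_zero]
          · rw [if_neg h1, mul_zero, zero_mul, zero_mul]
        · intro h1
          exact absurd (Finset.mem_univ _) h1
    · -- the indicator functions
      let _ : Fintype (M ⧸ L) := Fintype.ofFinite _
      let E := Fintype.equivFin (M ⧸ L)
      refine ⟨_, fun i => e (E.symm i), fun i => e (y - E.symm i), fun i => ?_, fun i => ?_,
        fun s t => ?_⟩
      · exact hadj _ (Or.inr ⟨_, rfl⟩)
      · exact hadj _ (Or.inr ⟨_, rfl⟩)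
      · show (if q (s + t) = y then (1 : Qbar) else 0) = ∑ i, (if q s = E.symm i then (1 : Qbar) else 0) *
          (if q t = y - E.symm i then (1 : Qbar) else 0)
        rw [Finset.sum_eq_single (E (q s))]
        · rw [Equiv.symm_apply_apply, if_pos rfl, one_mul, hqadd]
          congr 1
          rw [eq_sub_iff_add_eq, add_comm]
        · intro i _ hi
          rw [if_neg, zero_mul]
          intro h1
          apply hi
          rw [h1, Equiv.apply_symm_apply]
        · intro h1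
          exact absurd (Finset.mem_univ _) h1

end modules

end Fermat.Agent.RT.PStep
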