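import Mathlib
import Fermat.Agent.RT.PStep.Kummer
import Fermat.Agent.FlatModel.Adic
import Fermat.Agent.DefCond.Basic

/-!
# The valuation invariant of an ordinary Galois representation
-/

set_option autoImplicit false

open IsLocalRing Fermat.FlatModel

namespace Fermat.Agent.RT.PStep

local notation "Qbar" => AlgebraicClosure ℚ
local notation "GQ" => (AlgebraicClosure ℚ ≃ₐ[ℚ] AlgebraicClosure ℚ)

section det

variable {A : Type} [CommRing A] [IsLocalRing A]

/-- `V / 𝔞 V` is finite for open `𝔞`. -/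
theorem finite_level (ρ : GaloisRepAdic A) (I : Ideal A) (hI : Finite (A ⧸ I)) :
    Finite (ρ.V ⧸ (I • (⊤ : Submodule A ρ.V))) := by
  have h1 : Module.Finite (A ⧸ I) (ρ.V ⧸ (I • (⊤ : Submodule A ρ.V))) :=
    Module.Finite.of_restrictScalars_finite A _ _
  exact Module.finite_of_finite (A ⧸ I)

end det

/-- The shape of an ordinary representation on a decomposition group. -/
structure OrdData {A : Type} [CommRing A] [IsLocalRing A] (ρ : GaloisRepAdic A)
    (P : ValuationSubring Qbar) where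
  b : Module.Basis (Fin 2) A ρ.V
  x : GQ → A
  y : GQ → A
  z : GQ → A
  h0 : ∀ φ ∈ P.decompositionSubgroup ℚ, ρ.ρ φ (b 0) = x φ • b 0
  h1 : ∀ φ ∈ P.decompositionSubgroup ℚ, ρ.ρ φ (b 1) = y φ • b 0 + z φ • b 1
  hI : ∀ σ ∈ P.inertiaSubgroupIn ℚ, z σ = 1

variable {A : Type} [CommRing A] [IsLocalRing A] {ρ : GaloisRepAdic A} {P : ValuationSubring Qbar}
  {p : ℕ}

theorem exists_ordData (h : ρ.IsOrdinaryAt p) (hP : P.LiesOverPrime p) :
    Nonempty (OrdData ρ P) := by
  obtain ⟨L, ⟨b, rfl⟩, hD, hI⟩ := h P hP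
  refine ⟨{ b := b
            x := fun φ => b.repr (ρ.ρ φ (b 0)) 0
            y := fun φ => b.repr (ρ.ρ φ (b 1)) 0
            z := fun φ => b.repr (ρ.ρ φ (b 1)) 1
            h0 := fun φ hφ => ?_
            h1 := fun φ hφ => ?_
            hI := fun σ hσ => ?_ }⟩
  · obtain ⟨c, hc⟩ := Submodule.mem_span_singleton.mp (hD φ hφ (b 0)
      (Submodule.mem_span_singleton_self _))
    rw [← hc, map_smul, Finsupp.smul_apply, b.repr_self, Finsupp.single_eq_same, smul_eq_mul,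
      mul_one]
  · conv_lhs => rw [← b.sum_repr (ρ.ρ φ (b 1)), Fin.sum_univ_two]
  · obtain ⟨c, hc⟩ := Submodule.mem_span_singleton.mp (hI σ hσ (b 1))
    have h1 := congrArg (fun v => b.repr v 1) hc
    simp only [map_sub, map_smul, Finsupp.sub_apply, Finsupp.smul_apply, b.repr_self] at h1
    rw [Finsupp.single_eq_same, Finsupp.single_eq_of_ne (by decide), smul_zero] at h1
    exact (sub_eq_zero.mp h1.symm)

namespace OrdData

variable (d : OrdData ρ P)

theorem hIσ {σ : GQ} (hσ : σ ∈ P.inertiaSubgroupIn ℚ) :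
    ρ.ρ σ (d.b 1) = d.y σ • d.b 0 + d.b 1 := by
  rw [d.h1 σ (FlatOrd.InertiaLift.mem_decompositionSubgroup_of_mem_inertia P hσ), d.hI σ hσ,
    one_smul]

theorem h0σ {σ : GQ} (hσ : σ ∈ P.inertiaSubgroupIn ℚ) :
    ρ.ρ σ (d.b 0) = d.x σ • d.b 0 :=
  d.h0 σ (FlatOrd.InertiaLift.mem_decompositionSubgroup_of_mem_inertia P hσ)

theorem det {φ : GQ} (hφ : φ ∈ P.decompositionSubgroup ℚ) :
    LinearMap.det (ρ.ρ φ) = d.x φ * d.z φ := by
  rw [← LinearMap.det_toMatrix d.b, Matrix.det_fin_two, LinearMap.toMatrix_apply,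
    LinearMap.toMatrix_apply, LinearMap.toMatrix_apply, LinearMap.toMatrix_apply, d.h0 φ hφ,
    d.h1 φ hφ]
  simp only [map_add, map_smul, Finsupp.add_apply, Finsupp.smul_apply, d.b.repr_self]
  rw [Finsupp.single_eq_same, Finsupp.single_eq_same, Finsupp.single_eq_of_ne (by decide),
    Finsupp.single_eq_of_ne (by decide)]
  simp

/-- Base change of an ordinary representation. -/
noncomputable def baseChange {B : Type} [CommRing B] [IsLocalRing B] (φ : A →+* B)
    (hφ : IsLocalHom φ) : OrdData (ρ.baseChangeAlong φ hφ) P where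
  b := DefCond.baseChangeBasis φ hφ ρ d.b
  x := fun σ => φ (d.x σ)
  y := fun σ => φ (d.y σ)
  z := fun σ => φ (d.z σ)
  h0 := fun σ hσ => by
    rw [DefCond.baseChangeBasis_apply, DefCond.rho_inc, d.h0 σ hσ, DefCond.inc_smul]
  h1 := fun σ hσ => by
    rw [DefCond.baseChangeBasis_apply, DefCond.baseChangeBasis_apply, DefCond.rho_inc, d.h1 σ hσ,
      map_add, DefCond.inc_smul, DefCond.inc_smul]
  hI := fun σ hσ => by rw [d.hI σ hσ, map_one]

/-- The submodule `L` at level `𝔞`. -/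
def levL (I : Ideal A) : AddSubgroup (ρ.V ⧸ (I • (⊤ : Submodule A ρ.V))) :=
  (Submodule.span A {(Submodule.Quotient.mk (d.b 0) : ρ.V ⧸ (I • (⊤ : Submodule A ρ.V)))}).toAddSubgroup

theorem mem_levL {I : Ideal A} {m : ρ.V ⧸ (I • (⊤ : Submodule A ρ.V))} :
    m ∈ d.levL I ↔ ∃ c : A, Submodule.Quotient.mk (c • d.b 0) = m :=
  Submodule.mem_span_singleton

theorem smul_mk_eq_zero {I : Ideal A} {c : A} (hc : c ∈ I) (v : ρ.V) :
    (Submodule.Quotient.mk (c • v) : ρ.V ⧸ (I • (⊤ : Submodule A ρ.V))) = 0 := by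
  rw [Submodule.Quotient.mk_eq_zero]
  exact Submodule.smul_mem_smul hc trivial

theorem mk_smul_congr {I : Ideal A} {c c' : A} (hc : c - c' ∈ I) (v : ρ.V) :
    (Submodule.Quotient.mk (c • v) : ρ.V ⧸ (I • (⊤ : Submodule A ρ.V))) =
      Submodule.Quotient.mk (c' • v) := by
  rw [← sub_eq_zero, ← Submodule.Quotient.mk_sub, ← sub_smul]
  exact smul_mk_eq_zero hc v

theorem levelAct_mk {I : Ideal A} (σ : GQ) (v : ρ.V) :
    levelAct ρ I σ (Submodule.Quotient.mk v) = Submodule.Quotient.mk (ρ.ρ σ v) := rfl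

/-- The levels of an ordinary representation are ordinary modules. -/
theorem ordMod (hdet : ρ.DetIsCyclotomic p) {I : Ideal A} {n : ℕ}
    (hn : ((p : A)) ^ n ∈ I) (hI : Finite (A ⧸ I)) :
    OrdMod (levelAct ρ I) P p n (d.levL I) where
  kill := by
    intro l hl
    obtain ⟨c, rfl⟩ := d.mem_levL.mp hl
    rw [← Submodule.Quotient.mk_smul, ← Nat.cast_smul_eq_nsmul A, Nat.cast_pow]
    exact smul_mk_eq_zero hn _
  quo := by
    intro σ hσ m
    obtain ⟨v, rfl⟩ := Submodule.Quotient.mk_surjective _ m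
    rw [levelAct_mk, ← Submodule.Quotient.mk_sub, d.mem_levL]
    rw [← d.b.sum_repr v, Fin.sum_univ_two, map_add, map_smul, map_smul, d.h0σ hσ, d.hIσ hσ]
    refine ⟨d.b.repr v 0 * (d.x σ - 1) + d.b.repr v 1 * d.y σ, ?_⟩
    congr 1
    simp only [smul_add, add_smul, mul_smul, sub_smul, smul_sub, one_smul]
    abel
  cyc := by
    intro σ hσ a ha l hl
    obtain ⟨c, rfl⟩ := d.mem_levL.mp hl
    rw [levelAct_mk, map_smul, d.h0σ hσ, ← Submodule.Quotient.mk_smul,
      ← Nat.cast_smul_eq_nsmul A, smul_smul, smul_smul]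
    refine mk_smul_congr ?_ _
    have h1 := hdet.2 n σ a ha
    have h2 := d.det (FlatOrd.InertiaLift.mem_decompositionSubgroup_of_mem_inertia P hσ)
    rw [d.hI σ hσ, mul_one] at h2
    rw [h2] at h1
    have h3 : Ideal.span {((p ^ n : ℕ) : A)} ≤ I := by
      rw [Ideal.span_singleton_le_iff_mem, Nat.cast_pow]
      exact hn
    have h4 : c * d.x σ - (a : A) * c = c * (d.x σ - a) := by ring
    rw [h4]
    exact I.mul_mem_left c (h3 h1)
  smooth := by
    have : IsArtinianRing (A ⧸ I) := inferInstance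
    obtain ⟨N, hN⟩ := exists_maximalIdeal_pow_le_of_isArtinianRing_quotient I
    obtain ⟨E, hE, hE'⟩ := ρ.isAdicContinuous N
    intro m
    refine ⟨E, hE, fun σ hσ => ?_⟩
    obtain ⟨v, rfl⟩ := Submodule.Quotient.mk_surjective _ m
    rw [levelAct_mk, ← sub_eq_zero, ← Submodule.Quotient.mk_sub, Submodule.Quotient.mk_eq_zero]
    exact Submodule.smul_mono_left hN (hE' σ hσ v)

theorem exists_pow_mem (hdet : ρ.DetIsCyclotomic p) (I : Ideal A) (hI : Finite (A ⧸ I)) :
    ∃ n : ℕ, ((p : A)) ^ n ∈ I := by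
  have : IsArtinianRing (A ⧸ I) := inferInstance
  obtain ⟨N, hN⟩ := exists_maximalIdeal_pow_le_of_isArtinianRing_quotient I
  exact ⟨N, hN (Ideal.pow_mem_pow hdet.1 N)⟩

/-- If `τ` is trivial modulo `𝔞` then `V / 𝔞 V` has a flat model. -/
theorem hasFlatModel (hdet : ρ.DetIsCyclotomic p) (hp : p.Prime) (hP : P.LiesOverPrime p)
    {τ : GQ} (hτ : IsTau P p τ) {I : Ideal A} (hI : Finite (A ⧸ I)) (hy : d.y τ ∈ I) :
    HasFlatModel p (levelAct ρ I) := by
  obtain ⟨n, hn⟩ := exists_pow_mem hdet I hI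
  have hfin := finite_level ρ I hI
  refine (d.ordMod hdet hn hI).isFlatModel hp hP hτ fun m => ?_
  obtain ⟨v, rfl⟩ := Submodule.Quotient.mk_surjective _ m
  rw [levelAct_mk, ← sub_eq_zero, ← Submodule.Quotient.mk_sub]
  rw [← d.b.sum_repr v, Fin.sum_univ_two, map_add, map_smul, map_smul, d.h0σ hτ.mem,
    d.hIσ hτ.mem]
  have h1 : d.x τ - 1 ∈ I := by
    have h1 := hdet.2 n τ 1 (fun μ hμ => by
      rw [pow_one]
      exact hτ.fix μ (root_of_pow_eq_one hp hμ))
    rw [d.det (FlatOrd.InertiaLift.mem_decompositionSubgroup_of_mem_inertia P hτ.mem),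
      d.hI τ hτ.mem, mul_one, Nat.cast_one] at h1
    have h3 : Ideal.span {((p ^ n : ℕ) : A)} ≤ I := by
      rw [Ideal.span_singleton_le_iff_mem, Nat.cast_pow]
      exact hn
    exact h3 h1
  have h2 : d.b.repr v 0 • d.x τ • d.b 0 + d.b.repr v 1 • (d.y τ • d.b 0 + d.b 1) -
      (d.b.repr v 0 • d.b 0 + d.b.repr v 1 • d.b 1) =
      (d.b.repr v 0 * (d.x τ - 1) + d.b.repr v 1 * d.y τ) • d.b 0 := by
    simp only [smul_add, add_smul, mul_smul, sub_smul, smul_sub, one_smul]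
    abel
  rw [h2]
  exact smul_mk_eq_zero (I.add_mem (I.mul_mem_left _ h1) (I.mul_mem_left _ hy)) _

/-- **K3**: an ordinary representation with vanishing valuation invariant is flat. -/
theorem isFlatAt (hdet : ρ.DetIsCyclotomic p) (hp : p.Prime) (hP : P.LiesOverPrime p)
    {τ : GQ} (hτ : IsTau P p τ) (hfin : Finite (ResidueField A)) (hy : d.y τ = 0) :
    ρ.IsFlatAt p := by
  rw [isFlatAt_iff]
  refine ⟨hfin, fun I hI => d.hasFlatModel hdet hp hP hτ hI ?_⟩
  rw [hy]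
  exact I.zero_mem

/-- **K2** at finite level. -/
theorem sq_sub_one_mul_mem (hdet : ρ.DetIsCyclotomic p) (hp : p.Prime) (hP : P.LiesOverPrime p)
    {τ : GQ} (hτ : IsTau P p τ) {φ : GQ} (hφ : φ ∈ P.decompositionSubgroup ℚ) {I : Ideal A}
    (hI : Finite (A ⧸ I)) : (d.z φ ^ 2 - 1) * d.y τ ∈ I := by
  obtain ⟨n, hn⟩ := exists_pow_mem hdet I hI
  have hfin := finite_level ρ I hI
  have h3 : Ideal.span {((p ^ n : ℕ) : A)} ≤ I := by
    rw [Ideal.span_singleton_le_iff_mem, Nat.cast_pow]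
    exact hn
  obtain ⟨a, ha0, hacop, ha⟩ := exists_pow_eq hp n φ
  have hτD := FlatOrd.InertiaLift.mem_decompositionSubgroup_of_mem_inertia P hτ.mem
  have hxτ : d.x τ - 1 ∈ I := by
    have h1 := hdet.2 n τ 1 (fun μ hμ => by
      rw [pow_one]
      exact hτ.fix μ (root_of_pow_eq_one hp hμ))
    rw [d.det hτD, d.hI τ hτ.mem, mul_one, Nat.cast_one] at h1
    exact h3 h1
  have hdetφ : d.x φ * d.z φ - a ∈ I := by
    have h1 := hdet.2 n φ a ha
    rw [d.det hφ] at h1
    exact h3 h1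
  -- the action of `τ ^ i`
  have hτ0 : ∀ i : ℕ, (Submodule.Quotient.mk (ρ.ρ (τ ^ i) (d.b 0)) :
      ρ.V ⧸ (I • (⊤ : Submodule A ρ.V))) = Submodule.Quotient.mk (d.b 0) := by
    intro i
    induction i with
    | zero => rw [pow_zero, map_one]; rfl
    | succ i ih =>
      rw [pow_succ, map_mul]
      show Submodule.Quotient.mk (ρ.ρ (τ ^ i) (ρ.ρ τ (d.b 0))) = _
      rw [d.h0 τ hτD, map_smul]
      rw [mk_smul_congr (c' := 1) hxτ, one_smul, ih]
  have hτ1 : ∀ i : ℕ, (Submodule.Quotient.mk (ρ.ρ (τ ^ i) (d.b 1)) :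
      ρ.V ⧸ (I • (⊤ : Submodule A ρ.V))) =
        Submodule.Quotient.mk (((i : A) * d.y τ) • d.b 0 + d.b 1) := by
    intro i
    induction i with
    | zero => rw [pow_zero, map_one, Nat.cast_zero, zero_mul, zero_smul, zero_add]; rfl
    | succ i ih =>
      rw [pow_succ, map_mul]
      show Submodule.Quotient.mk (ρ.ρ (τ ^ i) (ρ.ρ τ (d.b 1))) = _
      rw [d.hIσ hτ.mem, map_add, map_smul, Submodule.Quotient.mk_add, Submodule.Quotient.mk_smul,
        hτ0 i, ih, ← Submodule.Quotient.mk_smul, ← Submodule.Quotient.mk_add]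
      congr 1
      push_cast
      simp only [add_mul, one_mul, add_smul]
      abel
  -- the commutation relation
  have hcomm : ∀ v : ρ.V, (Submodule.Quotient.mk (ρ.ρ φ (ρ.ρ τ v)) :
      ρ.V ⧸ (I • (⊤ : Submodule A ρ.V))) = Submodule.Quotient.mk (ρ.ρ (τ ^ a) (ρ.ρ φ v)) := by
    intro v
    have h4 := (d.ordMod hdet hn hI).act_conj_tau hp hP hτ hφ ha
      (Submodule.Quotient.mk (ρ.ρ φ v))
    rw [levelAct_mk, levelAct_mk] at h4
    rw [← h4]
    congr 1
    rw [← Module.End.mul_apply, ← Module.End.mul_apply, ← map_mul, ← map_mul, inv_mul_cancel_right]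
  have h5 := hcomm (d.b 1)
  have e5 : (Submodule.Quotient.mk (ρ.ρ (τ ^ a) (ρ.ρ φ (d.b 1))) :
      ρ.V ⧸ (I • (⊤ : Submodule A ρ.V))) = Submodule.Quotient.mk
        (d.y φ • d.b 0 + d.z φ • (((a : A) * d.y τ) • d.b 0 + d.b 1)) := by
    rw [d.h1 φ hφ, map_add, map_smul, map_smul, Submodule.Quotient.mk_add,
      Submodule.Quotient.mk_smul, Submodule.Quotient.mk_smul, hτ0, hτ1]
    rfl
  rw [e5, d.hIσ hτ.mem, map_add, map_smul, d.h0 φ hφ, d.h1 φ hφ, ← sub_eq_zero,
    ← Submodule.Quotient.mk_sub, Submodule.Quotient.mk_eq_zero] at h5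
  have h6 : d.y τ • d.x φ • d.b 0 + (d.y φ • d.b 0 + d.z φ • d.b 1) -
      (d.y φ • d.b 0 + d.z φ • (((a : A) * d.y τ) • d.b 0 + d.b 1)) =
      (d.y τ * d.x φ - d.z φ * ((a : A) * d.y τ)) • d.b 0 := by
    simp only [smul_add, mul_smul, sub_smul]
    abel
  rw [h6] at h5
  -- extract the coefficient
  have h7 : d.y τ * d.x φ - d.z φ * ((a : A) * d.y τ) ∈ I := by
    have h8 : ∀ v ∈ I • (⊤ : Submodule A ρ.V), d.b.coord 0 v ∈ I := by
      intro v hv
      refine Submodule.smul_induction_on hv (fun r hr w _ => ?_) (fun v w hv hw => ?_)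
      · rw [map_smul]
        exact I.mul_mem_right _ hr
      · rw [map_add]
        exact I.add_mem hv hw
    have h9 := h8 _ h5
    rw [map_smul, Module.Basis.coord_apply, d.b.repr_self, Finsupp.single_eq_same, smul_eq_mul,
      mul_one] at h9
    exact h9
  -- multiply by `z φ`
  have hunit : IsUnit (a : A) := by
    by_contra hcon
    have h8 : (a : A) ∈ maximalIdeal A := hcon
    obtain ⟨u, v, huv⟩ := Nat.isCoprime_iff_coprime.mpr hacop
    have h9 : (u : A) * (a : A) + (v : A) * (p : A) = 1 := by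
      have h5 := congrArg (Int.cast : ℤ → A) huv
      push_cast at h5
      exact h5
    have h10 : (1 : A) ∈ maximalIdeal A := by
      rw [← h9]
      exact Ideal.add_mem _ (Ideal.mul_mem_left _ _ h8) (Ideal.mul_mem_left _ _ hdet.1)
    exact (Ideal.ne_top_iff_one _).mp (maximalIdeal.isMaximal A).ne_top h10
  have h8 : (a : A) * ((d.z φ ^ 2 - 1) * d.y τ) ∈ I := by
    have h9 : (a : A) * ((d.z φ ^ 2 - 1) * d.y τ) =
      -(d.z φ * (d.y τ * d.x φ - d.z φ * ((a : A) * d.y τ))) +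
        d.y τ * (d.x φ * d.z φ - a) := by ring
    rw [h9]
    exact I.add_mem (I.neg_mem (I.mul_mem_left _ h7)) (I.mul_mem_left _ hdetφ)
  exact (Ideal.unit_mul_mem_iff_mem I hunit).mp h8

end OrdData

end Fermat.Agent.RT.PStep
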