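import Mathlib
import Fermat.Prelude.Def_GaloisRep_StrictOrdinary
import Fermat.Agent.RT.PStep.OrdData
import Fermat.Agent.DefCond.Flat

/-!
# Ordinary deformations of a non-flat representation are strictly ordinary
-/

set_option autoImplicit false

open IsLocalRing Fermat.FlatModel
open scoped TensorProduct

namespace Fermat.Agent.RT.PStep

local notation "Qbar" => AlgebraicClosure ℚ
local notation "GQ" => (AlgebraicClosure ℚ ≃ₐ[ℚ] AlgebraicClosure ℚ)

variable {A : Type} [CommRing A] [IsLocalRing A] {ρ : GaloisRepAdic A} {P : ValuationSubring Qbar}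
  {p : ℕ}

namespace OrdData

variable (d : OrdData ρ P)

/-- The residual representation of an ordinary representation. -/
noncomputable def residual : OrdData (GaloisRepAdic.ofResidualGaloisRep ρ.residual) P where
  b := d.b.baseChange (ResidueField A)
  x := fun σ => residue A (d.x σ)
  y := fun σ => residue A (d.y σ)
  z := fun σ => residue A (d.z σ)
  h0 := fun σ hσ => by
    have h1 : (ρ.ρ σ).baseChange (ResidueField A) ((1 : ResidueField A) ⊗ₜ[A] d.b 0) =
        residue A (d.x σ) • ((1 : ResidueField A) ⊗ₜ[A] d.b 0) := by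
      rw [LinearMap.baseChange_tmul, d.h0 σ hσ, TensorProduct.tmul_smul,
        TensorProduct.smul_tmul', TensorProduct.smul_tmul', Algebra.smul_def, smul_eq_mul]
      rfl
    rw [← Module.Basis.baseChange_apply] at h1
    exact h1
  h1 := fun σ hσ => by
    have h1 : (ρ.ρ σ).baseChange (ResidueField A) ((1 : ResidueField A) ⊗ₜ[A] d.b 1) =
        residue A (d.y σ) • ((1 : ResidueField A) ⊗ₜ[A] d.b 0) +
          residue A (d.z σ) • ((1 : ResidueField A) ⊗ₜ[A] d.b 1) := by
      rw [LinearMap.baseChange_tmul, d.h1 σ hσ, TensorProduct.tmul_add, TensorProduct.tmul_smul,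
        TensorProduct.tmul_smul]
      rfl
    rw [← Module.Basis.baseChange_apply, ← Module.Basis.baseChange_apply] at h1
    exact h1
  hI := fun σ hσ => by rw [d.hI σ hσ, map_one]

/-- **K2**. -/
theorem sq_sub_one_mul_eq_zero [IsNoetherianRing A] (hfin : Finite (ResidueField A))
    (hdet : ρ.DetIsCyclotomic p) (hp : p.Prime) (hP : P.LiesOverPrime p)
    {τ : GQ} (hτ : IsTau P p τ) {φ : GQ} (hφ : φ ∈ P.decompositionSubgroup ℚ) :
    (d.z φ ^ 2 - 1) * d.y τ = 0 := by
  have h1 : (d.z φ ^ 2 - 1) * d.y τ ∈ ⨅ n : ℕ, maximalIdeal A ^ n := by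
    rw [Ideal.mem_iInf]
    intro n
    exact d.sq_sub_one_mul_mem hdet hp hP hτ hφ
      (finite_quotient_iff.mpr ⟨n, le_rfl⟩)
  rwa [Ideal.iInf_pow_eq_bot_of_isLocalRing _ (maximalIdeal.isMaximal A).ne_top,
    Ideal.mem_bot] at h1

end OrdData

/-- The residual determinant is cyclotomic. -/
theorem detIsCyclotomic_residual (hdet : ρ.DetIsCyclotomic p) :
    (GaloisRepAdic.ofResidualGaloisRep ρ.residual).DetIsCyclotomic p := by
  refine ⟨?_, fun n σ a ha => ?_⟩
  · have h1 : residue A (p : A) = 0 := (residue_eq_zero_iff _).mpr hdet.1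
    rw [map_natCast] at h1
    rw [h1]
    exact Ideal.zero_mem _
  · have h1 := hdet.2 n σ a ha
    have h2 : LinearMap.det ((GaloisRepAdic.ofResidualGaloisRep ρ.residual).ρ σ) =
        residue A (LinearMap.det (ρ.ρ σ)) := LinearMap.det_baseChange _
    rw [h2]
    obtain ⟨c, hc⟩ := Ideal.mem_span_singleton.mp h1
    refine Ideal.mem_span_singleton.mpr ⟨residue A c, ?_⟩
    have h3 := congrArg (residue A) hc
    rw [map_sub, map_mul, map_natCast, map_natCast] at h3
    exact h3

/-- If the valuation invariant is in the maximal ideal then `τ` acts trivially residually. -/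
theorem OrdData.residual_eq_one (d : OrdData ρ P) (hdet : ρ.DetIsCyclotomic p) (hp : p.Prime)
    {τ : GQ} (hτ : IsTau P p τ) (hy : d.y τ ∈ maximalIdeal A) : ρ.residual.ρ τ = 1 := by
  have hx : d.x τ - 1 ∈ maximalIdeal A := by
    have h1 := hdet.2 1 τ 1 (fun μ hμ => by
      rw [pow_one]
      exact hτ.fix μ (root_of_pow_eq_one hp hμ))
    rw [d.det (FlatOrd.InertiaLift.mem_decompositionSubgroup_of_mem_inertia P hτ.mem),
      d.hI τ hτ.mem, mul_one, Nat.cast_one] at h1
    have h3 : Ideal.span {((p ^ 1 : ℕ) : A)} ≤ maximalIdeal A := by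
      rw [Ideal.span_singleton_le_iff_mem, pow_one]
      exact hdet.1
    exact h3 h1
  have hx' : residue A (d.x τ) = 1 := by
    have h1 := (residue_eq_zero_iff _).mpr hx
    rwa [map_sub, map_one, sub_eq_zero] at h1
  have hy' : residue A (d.y τ) = 0 := (residue_eq_zero_iff _).mpr hy
  have h0 := d.residual.h0σ hτ.mem
  have h1 := d.residual.hIσ hτ.mem
  have e0 : (GaloisRepAdic.ofResidualGaloisRep ρ.residual).ρ τ = 1 := by
    refine d.residual.b.ext fun i => ?_
    fin_cases i
    · show (GaloisRepAdic.ofResidualGaloisRep ρ.residual).ρ τ (d.residual.b 0) = d.residual.b 0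
      rw [h0]
      show residue A (d.x τ) • _ = _
      rw [hx', one_smul]
    · show (GaloisRepAdic.ofResidualGaloisRep ρ.residual).ρ τ (d.residual.b 1) = d.residual.b 1
      rw [h1]
      show residue A (d.y τ) • _ + _ = _
      rw [hy', zero_smul, zero_add]
  exact e0

/-- Strictness from the annihilation of `z² - 1`. -/
theorem isStrictOrdinaryAt_of_sq_eq_one (hdet : ρ.DetIsCyclotomic p)
    (h : ∀ P : ValuationSubring Qbar, P.LiesOverPrime p → ∃ d : OrdData ρ P,
      ∀ φ ∈ P.decompositionSubgroup ℚ, d.z φ ^ 2 = 1) : ρ.IsStrictOrdinaryAt p := by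
  refine ⟨hdet.1, fun P hP => ?_⟩
  obtain ⟨d, hz⟩ := h P hP
  refine ⟨Submodule.span A {d.b 0}, ⟨d.b, rfl⟩, fun σ hσ v hv => ?_, fun σ hσ v => ?_,
    fun σ hσ => ⟨d.x σ, d.z σ, fun w hw => ?_, fun v => ?_, fun n a ha => ?_⟩⟩
  · obtain ⟨c, rfl⟩ := Submodule.mem_span_singleton.mp hv
    rw [map_smul, d.h0 σ hσ]
    exact Submodule.smul_mem _ _ (Submodule.smul_mem _ _ (Submodule.mem_span_singleton_self _))
  · rw [← d.b.sum_repr v, Fin.sum_univ_two, map_add, map_smul, map_smul, d.h0σ hσ, d.hIσ hσ]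
    refine Submodule.mem_span_singleton.mpr
      ⟨d.b.repr v 0 * (d.x σ - 1) + d.b.repr v 1 * d.y σ, ?_⟩
    simp only [smul_add, add_smul, mul_smul, sub_smul, smul_sub, one_smul]
    abel
  · obtain ⟨c, rfl⟩ := Submodule.mem_span_singleton.mp hw
    rw [map_smul, d.h0 σ hσ, smul_comm]
  · rw [← d.b.sum_repr v, Fin.sum_univ_two, map_add, map_smul, map_smul, d.h0 σ hσ, d.h1 σ hσ]
    refine Submodule.mem_span_singleton.mpr
      ⟨d.b.repr v 0 * (d.x σ - d.z σ) + d.b.repr v 1 * d.y σ, ?_⟩
    simp only [smul_add, add_smul, mul_smul, sub_smul, smul_sub]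
    rw [smul_comm (d.z σ) (d.b.repr v 0), smul_comm (d.z σ) (d.b.repr v 1)]
    abel
  · have h1 := hdet.2 n σ a ha
    rw [d.det hσ] at h1
    have h2 : d.x σ - a * d.z σ = (d.x σ * d.z σ - a) * d.z σ := by
      linear_combination (-d.x σ) * hz σ hσ
    rw [h2]
    exact Ideal.mul_mem_right _ _ h1

/-- **Strictness**, version with `τ`: an ordinary representation whose reduction is not trivial
on `τ` is strictly ordinary. -/
theorem isStrictOrdinaryAt_of_tau [IsNoetherianRing A] (hfin : Finite (ResidueField A))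
    (hp : p.Prime) (hord : ρ.IsOrdinaryAt p) (hdet : ρ.DetIsCyclotomic p)
    (hres : ∀ P : ValuationSubring Qbar, P.LiesOverPrime p →
      ∃ τ : GQ, IsTau P p τ ∧ ρ.residual.ρ τ ≠ 1) :
    ρ.IsStrictOrdinaryAt p := by
  refine isStrictOrdinaryAt_of_sq_eq_one hdet fun P hP => ?_
  obtain ⟨τ, hτ, hne⟩ := hres P hP
  obtain ⟨d⟩ := exists_ordData hord hP
  have hunit : IsUnit (d.y τ) := by
    by_contra hcon
    exact hne (d.residual_eq_one hdet hp hτ hcon)
  refine ⟨d, fun φ hφ => ?_⟩
  have h1 := d.sq_sub_one_mul_eq_zero hfin hdet hp hP hτ hφ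
  rw [hunit.mul_left_eq_zero] at h1
  exact sub_eq_zero.mp h1

/-- **Strictness**: an ordinary representation whose reduction is not flat is strictly
ordinary. -/
theorem isStrictOrdinaryAt_of_not_flat [IsNoetherianRing A] (hfin : Finite (ResidueField A))
    (hp : p.Prime) (hp2 : p ≠ 2) (hord : ρ.IsOrdinaryAt p) (hdet : ρ.DetIsCyclotomic p)
    (hres : ¬ (GaloisRepAdic.ofResidualGaloisRep ρ.residual).IsFlatAt p) :
    ρ.IsStrictOrdinaryAt p := by
  refine isStrictOrdinaryAt_of_sq_eq_one hdet fun P hP => ?_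
  obtain ⟨τ, hτ⟩ := exists_isTau hp hp2 hP
  obtain ⟨d⟩ := exists_ordData hord hP
  have hunit : IsUnit (d.y τ) := by
    by_contra hcon
    apply hres
    refine d.residual.isFlatAt (detIsCyclotomic_residual hdet) hp hP hτ ?_ ?_
    · exact Finite.of_surjective _ residue_surjective
    · exact (residue_eq_zero_iff _).mpr hcon
  refine ⟨d, fun φ hφ => ?_⟩
  have h1 := d.sq_sub_one_mul_eq_zero hfin hdet hp hP hτ hφ
  rw [hunit.mul_left_eq_zero] at h1
  exact sub_eq_zero.mp h1

end Fermat.Agent.RT.PStep
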