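import Mathlib
import Fermat.Agent.RT.SelStep

/-!
# Surjectivity of the canonical map between universal deformation rings
-/

set_option autoImplicit false
set_option linter.unusedSectionVars false

open IsLocalRing

namespace Fermat.Agent.RT.PStep

open Fermat.Agent.RT.SelDer Fermat.Agent.RT.SelStep Fermat.Agent.UDef Fermat.Agent.DefCond

local notation "Qbar" => AlgebraicClosure ℚ
local notation "GQ" => (AlgebraicClosure ℚ ≃ₐ[ℚ] AlgebraicClosure ℚ)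

variable {𝒪 : Type} [CommRing 𝒪] [IsDomain 𝒪] [IsDiscreteValuationRing 𝒪]
  [IsAdicComplete (maximalIdeal 𝒪) 𝒪] {ρbar : ResidualGaloisRep (ResidueField 𝒪)}
  {𝒟₁ 𝒟₂ : ∀ ⦃A : Type⦄ [CommRing A] [IsLocalRing A] [Algebra 𝒪 A], GaloisRepAdic A → Prop}

/-- The canonical map of the universal deformation rings is surjective. -/
theorem surjective_of_canonical (D₁ : GaloisRep.DeformationRingData 𝒪 ρbar 𝒟₁)
    (D₂ : GaloisRep.DeformationRingData 𝒪 ρbar 𝒟₂)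
    (hbc : ∀ ⦃A B : Type⦄ [CommRing A] [IsLocalRing A] [Algebra 𝒪 A]
      [CommRing B] [IsLocalRing B] [Algebra 𝒪 B], IsCoeff 𝒪 A → IsCoeff 𝒪 B →
      ∀ (φ : A →ₐ[𝒪] B) (hφ : IsLocalHom (φ : A →+* B)) ⦃ρ : GaloisRepAdic A⦄,
        𝒟₁ ρ → 𝒟₁ (ρ.baseChangeAlong (φ : A →+* B) hφ))
    (π : D₂.R →ₐ[𝒪] D₁.R) (hπ : IsLocalHom (π : D₂.R →+* D₁.R))
    (hπe : (D₂.ρ.baseChangeAlong (π : D₂.R →+* D₁.R) hπ).IsEquiv D₁.ρ) :
    Function.Surjective π := by
  have hc₁ : IsCoeff 𝒪 D₁.R := ⟨inferInstance, D₁.residue_surjective, inferInstance⟩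
  set N : Ideal D₁.R := (maximalIdeal D₂.R).map (π : D₂.R →+* D₁.R) with hN
  have hNle : N ≤ maximalIdeal D₁.R := by
    rw [hN, Ideal.map_le_iff_le_comap]
    intro x hx
    rw [Ideal.mem_comap]
    exact map_nonunit (π : D₂.R →+* D₁.R) x hx
  have hNtop : N ≠ ⊤ := fun h => (maximalIdeal.isMaximal D₁.R).ne_top (top_le_iff.mp (h ▸ hNle))
  obtain ⟨hl, hcomp, hloc, hsurj, hmk⟩ := quotient_facts (𝒪 := 𝒪) D₁.residue_surjective hNtop
  have hcq : IsCoeff 𝒪 (D₁.R ⧸ N) := ⟨hloc, hsurj, inferInstance⟩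
  -- the isomorphism of residue fields
  let r : ResidueField 𝒪 →+* ResidueField D₁.R := ResidueField.map (algebraMap 𝒪 D₁.R)
  have hr : Function.Bijective r := by
    refine ⟨r.injective, fun y => ?_⟩
    obtain ⟨c, hc⟩ := D₁.residue_surjective y
    exact ⟨residue 𝒪 c, hc⟩
  let e : ResidueField 𝒪 ≃+* ResidueField D₁.R := RingEquiv.ofBijective r hr
  -- the map from the residue field to `R₁ / N`
  let s : ResidueField 𝒪 →+* D₁.R ⧸ N :=
    Ideal.Quotient.lift (maximalIdeal 𝒪) (algebraMap 𝒪 (D₁.R ⧸ N)) (by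
      intro c hc
      have h1 : algebraMap 𝒪 (D₁.R ⧸ N) c = Ideal.Quotient.mk N (π (algebraMap 𝒪 D₂.R c)) := by
        rw [AlgHom.commutes]; rfl
      rw [h1, Ideal.Quotient.eq_zero_iff_mem]
      refine Ideal.mem_map_of_mem _ ?_
      exact map_nonunit (algebraMap 𝒪 D₂.R) c hc)
  let g₀ : D₁.R →+* D₁.R ⧸ N := (s.comp (e.symm : ResidueField D₁.R →+* ResidueField 𝒪)).comp
    (residue D₁.R)
  have hg₀ : ∀ (x : D₁.R) (c : 𝒪), residue D₁.R x = residue D₁.R (algebraMap 𝒪 D₁.R c) →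
      g₀ x = algebraMap 𝒪 (D₁.R ⧸ N) c := by
    intro x c h
    show s (e.symm (residue D₁.R x)) = _
    have h1 : residue D₁.R (algebraMap 𝒪 D₁.R c) = e (residue 𝒪 c) := rfl
    rw [h, h1, RingEquiv.symm_apply_apply]
    rfl
  let g : D₁.R →ₐ[𝒪] D₁.R ⧸ N := { g₀ with
    commutes' := fun c => hg₀ _ c rfl }
  have hgloc : IsLocalHom (g : D₁.R →+* D₁.R ⧸ N) := by
    constructor
    intro x hx
    by_contra hcon
    have h1 : residue D₁.R x = 0 := (residue_eq_zero_iff _).mpr hcon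
    have h2 : g x = 0 := by
      show s (e.symm (residue D₁.R x)) = 0
      rw [h1, map_zero, map_zero]
    rw [show (g : D₁.R →+* D₁.R ⧸ N) x = g x from rfl, h2] at hx
    exact not_isUnit_zero hx
  let f : D₁.R →ₐ[𝒪] D₁.R ⧸ N := Ideal.Quotient.mkₐ 𝒪 N
  have hfg : (f.comp π : D₂.R →ₐ[𝒪] D₁.R ⧸ N) = g.comp π := by
    ext x
    obtain ⟨c, hc⟩ := D₂.residue_surjective (residue D₂.R x)
    have hc' : x - algebraMap 𝒪 D₂.R c ∈ maximalIdeal D₂.R := by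
      rw [← residue_eq_zero_iff, map_sub, sub_eq_zero]
      exact hc.symm
    have h1 : f (π x) = algebraMap 𝒪 (D₁.R ⧸ N) c := by
      have h2 : f (π (x - algebraMap 𝒪 D₂.R c)) = 0 :=
        Ideal.Quotient.eq_zero_iff_mem.mpr (Ideal.mem_map_of_mem _ hc')
      rw [map_sub, map_sub, sub_eq_zero, AlgHom.commutes, AlgHom.commutes] at h2
      exact h2
    show f (π x) = g (π x)
    rw [h1]
    symm
    refine hg₀ _ c ?_
    rw [← sub_eq_zero, ← map_sub, residue_eq_zero_iff, ← AlgHom.commutes π, ← map_sub]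
    exact map_nonunit (π : D₂.R →+* D₁.R) _ hc'
  have hfπloc : IsLocalHom ((f.comp π : D₂.R →ₐ[𝒪] D₁.R ⧸ N) : D₂.R →+* D₁.R ⧸ N) :=
    RingHom.isLocalHom_comp (f : D₁.R →+* D₁.R ⧸ N) (π : D₂.R →+* D₁.R)
  have hgπloc : IsLocalHom ((g.comp π : D₂.R →ₐ[𝒪] D₁.R ⧸ N) : D₂.R →+* D₁.R ⧸ N) :=
    RingHom.isLocalHom_comp (g : D₁.R →+* D₁.R ⧸ N) (π : D₂.R →+* D₁.R)
  have key : f = g := by
    refine universal_unique D₁ hsurj hmk hgloc ?_ (hbc hc₁ hcq g hgloc D₁.isOfType)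
    refine IsEquiv.trans' (IsEquiv.symm' (IsEquiv.bc hπe _ hmk)) ?_
    refine IsEquiv.trans' (bc_comp D₂.ρ (π : D₂.R →+* D₁.R) hπ (f : D₁.R →+* D₁.R ⧸ N) hmk
      _ hfπloc rfl) ?_
    refine IsEquiv.trans' (bc_congr D₂.ρ hfπloc hgπloc (by rw [hfg])) ?_
    refine IsEquiv.trans' (IsEquiv.symm' (bc_comp D₂.ρ (π : D₂.R →+* D₁.R) hπ
      (g : D₁.R →+* D₁.R ⧸ N) hgloc _ hgπloc rfl)) ?_
    exact IsEquiv.bc hπe _ hgloc
  have hNeq : N = maximalIdeal D₁.R := by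
    refine le_antisymm hNle fun x hx => ?_
    have h1 : f x = g x := by rw [key]
    have h2 : g x = 0 := by
      show s (e.symm (residue D₁.R x)) = 0
      rw [(residue_eq_zero_iff _).mpr hx, map_zero, map_zero]
    rw [h2] at h1
    exact Ideal.Quotient.eq_zero_iff_mem.mp h1
  -- conclude by completeness
  have hhaus : IsHausdorff ((maximalIdeal D₂.R).map (π : D₂.R →+* D₁.R)) D₁.R := by
    rw [← hN, hNeq]
    infer_instance
  refine surjective_of_mk_map_comp_surjective (I := maximalIdeal D₂.R) (π : D₂.R →+* D₁.R) ?_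
  intro y
  obtain ⟨y, rfl⟩ := Ideal.Quotient.mk_surjective y
  obtain ⟨c, hc⟩ := D₁.residue_surjective (residue D₁.R y)
  refine ⟨algebraMap 𝒪 D₂.R c, ?_⟩
  show Ideal.Quotient.mk N (π (algebraMap 𝒪 D₂.R c)) = Ideal.Quotient.mk N y
  rw [AlgHom.commutes, Ideal.Quotient.eq, hNeq, ← residue_eq_zero_iff, map_sub, sub_eq_zero]
  exact hc

end Fermat.Agent.RT.PStep
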