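import Mathlib
import Fermat.Agent.RT.SelStep
import Fermat.Agent.RT.PStep.Surj
import Fermat.Agent.RT.PStep.Strict

/-!
# From flat to ordinary: the Selmer side of the numerical criterion at `p`
-/

set_option autoImplicit false
set_option linter.unusedSectionVars false

open IsLocalRing

namespace Fermat.Agent.RT.PStep

open Fermat.Agent.RT.SelDer Fermat.Agent.RT.SelStep Fermat.Agent.UDef Fermat.Agent.DefCond

local notation "Qbar" => AlgebraicClosure ℚ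
local notation "GQ" => (AlgebraicClosure ℚ ≃ₐ[ℚ] AlgebraicClosure ℚ)

section Uniq

variable {A : Type} [CommRing A] [IsLocalRing A] {P : ValuationSubring Qbar} {p : ℕ}

/-- Some inertia element has determinant `≢ 1`. -/
theorem exists_isUnit_det_sub_one {ρ : GaloisRepAdic A} (hdet : ρ.DetIsCyclotomic p)
    (hp : p.Prime) (hp2 : p ≠ 2) (hP : P.LiesOverPrime p) :
    ∃ σ ∈ P.inertiaSubgroupIn ℚ, IsUnit (LinearMap.det (ρ.ρ σ) - 1) := by
  have hp0 : (p : Qbar) ≠ 0 := by exact_mod_cast hp.ne_zero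
  have hne : NeZero ((p : ℕ) : Qbar) := ⟨hp0⟩
  have hne' : NeZero p := ⟨hp.ne_zero⟩
  obtain ⟨ζ, hζ⟩ := HasEnoughRootsOfUnity.exists_primitiveRoot Qbar p
  obtain ⟨σ, hσ, hσζ⟩ := exists_inertia_ne hp hp2 hP hζ.pow_eq_one (hζ.ne_one hp.one_lt)
  refine ⟨σ, hσ, ?_⟩
  obtain ⟨a, ha0, -, ha⟩ := exists_pow_eq hp 1 σ
  obtain ⟨a', rfl⟩ : ∃ a', a = a' + 1 := ⟨a - 1, by omega⟩
  have h1 := hdet.2 1 σ (a' + 1) ha
  have hcop : a'.Coprime p := by
    refine ((Nat.Prime.coprime_iff_not_dvd hp).mpr ?_).symm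
    rintro ⟨m, rfl⟩
    apply hσζ
    rw [ha ζ (by rw [pow_one, hζ.pow_eq_one]), pow_succ, pow_mul, hζ.pow_eq_one, one_pow, one_mul]
  have h2 : LinearMap.det (ρ.ρ σ) - 1 - (a' : A) ∈ maximalIdeal A := by
    have h3 : Ideal.span {((p ^ 1 : ℕ) : A)} ≤ maximalIdeal A := by
      rw [Ideal.span_singleton_le_iff_mem, pow_one]
      exact hdet.1
    have h4 := h3 h1
    push_cast at h4
    have h5 : LinearMap.det (ρ.ρ σ) - 1 - (a' : A) = LinearMap.det (ρ.ρ σ) - ((a' : A) + 1) := by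
      ring
    rw [h5]
    exact h4
  by_contra hcon
  have h6 : LinearMap.det (ρ.ρ σ) - 1 ∈ maximalIdeal A := hcon
  have h7 : (a' : A) ∈ maximalIdeal A := by
    have := (maximalIdeal A).sub_mem h6 h2
    rwa [sub_sub_cancel] at this
  obtain ⟨u, v, huv⟩ := Nat.isCoprime_iff_coprime.mpr hcop
  have h9 : (u : A) * (a' : A) + (v : A) * (p : A) = 1 := by
    have h5 := congrArg (Int.cast : ℤ → A) huv
    push_cast at h5
    exact h5
  have h10 : (1 : A) ∈ maximalIdeal A := by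
    rw [← h9]
    exact Ideal.add_mem _ (Ideal.mul_mem_left _ _ h7) (Ideal.mul_mem_left _ _ hdet.1)
  exact (Ideal.ne_top_iff_one _).mp (maximalIdeal.isMaximal A).ne_top h10

/-- The quotient character of an ordinary representation with cyclotomic determinant is
well defined. -/
theorem OrdData.z_eq {ρ ρ' : GaloisRepAdic A} (d : OrdData ρ P) (d' : OrdData ρ' P)
    (h : ρ.IsEquiv ρ') (hdet : ρ.DetIsCyclotomic p) (hp : p.Prime) (hp2 : p ≠ 2)
    (hP : P.LiesOverPrime p) {φ : GQ} (hφ : φ ∈ P.decompositionSubgroup ℚ) :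
    d.z φ = d'.z φ := by
  obtain ⟨e⟩ := h
  obtain ⟨σ, hσ, hu⟩ := exists_isUnit_det_sub_one hdet hp hp2 hP
  have hσD := FlatOrd.InertiaLift.mem_decompositionSubgroup_of_mem_inertia P hσ
  rw [d.det hσD, d.hI σ hσ, mul_one] at hu
  -- the coordinates of `e (b 0)` and `e (b 1)`
  let c : Fin 2 → Fin 2 → A := fun i j => d'.b.repr (e.toLinearEquiv (d.b j)) i
  have hc : ∀ j, e.toLinearEquiv (d.b j) = c 0 j • d'.b 0 + c 1 j • d'.b 1 := fun j => by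
    conv_lhs => rw [← d'.b.sum_repr (e.toLinearEquiv (d.b j)), Fin.sum_univ_two]
  have hrepr : ∀ (r s : A) , d'.b.repr (r • d'.b 0 + s • d'.b 1) 1 = s := by
    intro r s
    rw [map_add, map_smul, map_smul, d'.b.repr_self, d'.b.repr_self, Finsupp.add_apply,
      Finsupp.smul_apply, Finsupp.smul_apply, Finsupp.single_eq_of_ne (by decide),
      Finsupp.single_eq_same, smul_zero, zero_add, smul_eq_mul, mul_one]
  have hc10 : c 1 0 = 0 := by
    have h1 := e.map_apply σ (d.b 0)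
    rw [d.h0 σ hσD, map_smul, hc 0, map_add, map_smul, map_smul, d'.h0 σ hσD, d'.h1 σ hσD,
      d'.hI σ hσ] at h1
    have h2 := congrArg (fun v => d'.b.repr v 1) h1
    have e1 : d.x σ • (c 0 0 • d'.b 0 + c 1 0 • d'.b 1) =
        (d.x σ * c 0 0) • d'.b 0 + (d.x σ * c 1 0) • d'.b 1 := by
      rw [smul_add, smul_smul, smul_smul]
    have e2 : c 0 0 • d'.x σ • d'.b 0 + c 1 0 • (d'.y σ • d'.b 0 + (1 : A) • d'.b 1) =
        (c 0 0 * d'.x σ + c 1 0 * d'.y σ) • d'.b 0 + (c 1 0) • d'.b 1 := by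
      rw [smul_add, smul_smul, smul_smul, one_smul, add_smul, add_assoc]
    simp only [e1, e2, hrepr] at h2
    have h3 : (d.x σ - 1) * c 1 0 = 0 := by rw [sub_mul, h2, one_mul, sub_self]
    rwa [hu.mul_right_eq_zero] at h3
  have hunit : IsUnit (c 1 1) := by
    have h1 : d'.b.repr (e.toLinearEquiv (e.toLinearEquiv.symm (d'.b 1))) 1 = 1 := by
      rw [LinearEquiv.apply_symm_apply, d'.b.repr_self, Finsupp.single_eq_same]
    set v := e.toLinearEquiv.symm (d'.b 1) with hv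
    rw [← d.b.sum_repr v, Fin.sum_univ_two, map_add, map_smul, map_smul, hc 0, hc 1, hc10] at h1
    have e1 : d.b.repr v 0 • (c 0 0 • d'.b 0 + (0 : A) • d'.b 1) +
        d.b.repr v 1 • (c 0 1 • d'.b 0 + c 1 1 • d'.b 1) =
        (d.b.repr v 0 * c 0 0 + d.b.repr v 1 * c 0 1) • d'.b 0 +
          (d.b.repr v 1 * c 1 1) • d'.b 1 := by
      rw [zero_smul, add_zero, smul_add, smul_smul, smul_smul, smul_smul, add_smul, add_assoc]
    rw [e1, hrepr] at h1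
    exact IsUnit.of_mul_eq_one_right _ h1
  have h1 := e.map_apply φ (d.b 1)
  rw [d.h1 φ hφ, map_add, map_smul, map_smul, hc 0, hc 1, map_add, map_smul, map_smul,
    d'.h0 φ hφ, d'.h1 φ hφ, hc10] at h1
  have e1 : d.y φ • (c 0 0 • d'.b 0 + (0 : A) • d'.b 1) + d.z φ • (c 0 1 • d'.b 0 + c 1 1 • d'.b 1)
      = (d.y φ * c 0 0 + d.z φ * c 0 1) • d'.b 0 + (d.z φ * c 1 1) • d'.b 1 := by
    rw [zero_smul, add_zero, smul_add, smul_smul, smul_smul, smul_smul, add_smul, add_assoc]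
  have e2 : c 0 1 • d'.x φ • d'.b 0 + c 1 1 • (d'.y φ • d'.b 0 + d'.z φ • d'.b 1) =
      (c 0 1 * d'.x φ + c 1 1 * d'.y φ) • d'.b 0 + (c 1 1 * d'.z φ) • d'.b 1 := by
    rw [smul_add, smul_smul, smul_smul, smul_smul, add_smul, add_assoc]
  have h2 := congrArg (fun v => d'.b.repr v 1) h1
  simp only [e1, e2, hrepr] at h2
  have h3 : c 1 1 * d.z φ = c 1 1 * d'.z φ := by rw [← h2, mul_comm]
  exact hunit.mul_left_cancel h3

end Uniq

section Cot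

variable {𝒪 : Type} [CommRing 𝒪] [IsDomain 𝒪] [IsDiscreteValuationRing 𝒪]
  [IsAdicComplete (maximalIdeal 𝒪) 𝒪]

/-- The contribution of a principal ideal `(v)` with `u v = 0`. -/
theorem length_map_span_singleton_le {R₂ : Type} [CommRing R₂] [Algebra 𝒪 R₂] (lam₂ : R₂ →ₐ[𝒪] 𝒪)
    (v u : R₂) (huv : u * v = 0) (hu : lam₂ u ≠ 0) :
    Module.length 𝒪 (((Ideal.span {v}).restrictScalars 𝒪).map (der lam₂)) ≤
      Ring.ord 𝒪 (lam₂ u) := by
  have hv : lam₂ v = 0 := by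
    have h1 : lam₂ (u * v) = 0 := by rw [huv, map_zero]
    rw [map_mul] at h1
    exact (mul_eq_zero.mp h1).resolve_left hu
  have hle : ((Ideal.span {v}).restrictScalars 𝒪).map (der lam₂) ≤
      Submodule.span 𝒪 {der lam₂ v} := by
    rintro _ ⟨x, hx, rfl⟩
    obtain ⟨r, rfl⟩ := Ideal.mem_span_singleton'.mp hx
    rw [der_mul, hv, zero_smul, add_zero]
    exact Submodule.smul_mem _ _ (Submodule.mem_span_singleton_self _)
  refine (Module.length_le_of_injective (Submodule.inclusion hle)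
    (Submodule.inclusion_injective _)).trans ?_
  -- `c • der v = 0`
  have hc : lam₂ u • der lam₂ v = 0 := by
    have h1 : der lam₂ (u * v) = 0 := by rw [huv, map_zero]
    rw [der_mul, hv, zero_smul, add_zero] at h1
    exact h1
  let g : (𝒪 ⧸ Ideal.span {lam₂ u}) →ₗ[𝒪] Submodule.span 𝒪 {der lam₂ v} :=
    (Ideal.span {lam₂ u}).liftQ (LinearMap.toSpanSingleton 𝒪 _
      (⟨der lam₂ v, Submodule.mem_span_singleton_self _⟩ : Submodule.span 𝒪 {der lam₂ v})) (by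
        intro a ha
        obtain ⟨r, rfl⟩ := Ideal.mem_span_singleton'.mp ha
        rw [LinearMap.mem_ker, LinearMap.toSpanSingleton_apply]
        apply Subtype.ext
        show (r * lam₂ u) • der lam₂ v = 0
        rw [mul_smul, hc, smul_zero])
  refine Module.length_le_of_surjective g ?_
  rintro ⟨y, hy⟩
  obtain ⟨r, rfl⟩ := Submodule.mem_span_singleton.mp hy
  refine ⟨Submodule.Quotient.mk r, ?_⟩
  apply Subtype.ext
  rfl

/-- Cotangent spaces along a surjection whose kernel is contained in a principal ideal `(v)`,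
with `u v = 0`. -/
theorem length_cot_le_of_principal {R₁ R₂ : Type} [CommRing R₁] [CommRing R₂] [Algebra 𝒪 R₁]
    [Algebra 𝒪 R₂] (π : R₂ →ₐ[𝒪] R₁) (hπ : Function.Surjective π) (lam : R₁ →ₐ[𝒪] 𝒪)
    (v u : R₂) (hker : RingHom.ker π ≤ Ideal.span {v}) (huv : u * v = 0)
    (hu : lam (π u) ≠ 0) :
    Module.length 𝒪 (Cot (lam.comp π)) ≤ Module.length 𝒪 (Cot lam) +
      Ring.ord 𝒪 (lam (π u)) := by
  refine (length_cot_le π hπ lam).trans (add_le_add le_rfl ?_)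
  have hle : ((RingHom.ker π).restrictScalars 𝒪).map (der (lam.comp π)) ≤
      ((Ideal.span {v}).restrictScalars 𝒪).map (der (lam.comp π)) := Submodule.map_mono hker
  exact (Module.length_le_of_injective (Submodule.inclusion hle)
    (Submodule.inclusion_injective _)).trans
    (length_map_span_singleton_le (lam.comp π) v u huv hu)

end Cot

section Main

variable {𝒪 : Type} [CommRing 𝒪] [IsDomain 𝒪] [IsDiscreteValuationRing 𝒪]
  [IsAdicComplete (maximalIdeal 𝒪) 𝒪] {ρbar : ResidualGaloisRep (ResidueField 𝒪)}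
  {𝒟₁ 𝒟₂ : ∀ ⦃A : Type⦄ [CommRing A] [IsLocalRing A] [Algebra 𝒪 A], GaloisRepAdic A → Prop}

/-- **From flat to ordinary.** -/
theorem length_cot_le_ordinary (D₁ : GaloisRep.DeformationRingData 𝒪 ρbar 𝒟₁)
    (D₂ : GaloisRep.DeformationRingData 𝒪 ρbar 𝒟₂)
    (hbc₁ : ∀ ⦃A B : Type⦄ [CommRing A] [IsLocalRing A] [Algebra 𝒪 A]
      [CommRing B] [IsLocalRing B] [Algebra 𝒪 B], IsCoeff 𝒪 A → IsCoeff 𝒪 B →
      ∀ (φ : A →ₐ[𝒪] B) (hφ : IsLocalHom (φ : A →+* B)) ⦃ρ : GaloisRepAdic A⦄,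
        𝒟₁ ρ → 𝒟₁ (ρ.baseChangeAlong (φ : A →+* B) hφ))
    (hbc₂ : ∀ ⦃A B : Type⦄ [CommRing A] [IsLocalRing A] [Algebra 𝒪 A]
      [CommRing B] [IsLocalRing B] [Algebra 𝒪 B], IsCoeff 𝒪 A → IsCoeff 𝒪 B →
      ∀ (φ : A →ₐ[𝒪] B) (hφ : IsLocalHom (φ : A →+* B)) ⦃ρ : GaloisRepAdic A⦄,
        𝒟₂ ρ → 𝒟₂ (ρ.baseChangeAlong (φ : A →+* B) hφ))
    {p : ℕ} (hp : p.Prime) (hp2 : p ≠ 2) (hfin : Finite (ResidueField 𝒪))
    (h𝒟 : ∀ ⦃A : Type⦄ [CommRing A] [IsLocalRing A] [Algebra 𝒪 A], IsCoeff 𝒪 A →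
      ∀ (ρ : GaloisRepAdic A), 𝒟₂ ρ → ρ.IsFlatAt p → 𝒟₁ ρ)
    (hdet₂ : ∀ ⦃A : Type⦄ [CommRing A] [IsLocalRing A] [Algebra 𝒪 A], IsCoeff 𝒪 A →
      ∀ (ρ : GaloisRepAdic A), 𝒟₂ ρ → ρ.DetIsCyclotomic p)
    (hord₂ : D₂.ρ.IsOrdinaryAt p)
    (π : D₂.R →ₐ[𝒪] D₁.R) (hπ : IsLocalHom (π : D₂.R →+* D₁.R))
    (hπe : (D₂.ρ.baseChangeAlong (π : D₂.R →+* D₁.R) hπ).IsEquiv D₁.ρ)
    (lam : D₁.R →ₐ[𝒪] 𝒪) (hlam : IsLocalHom (lam : D₁.R →+* 𝒪)) {ρ' : GaloisRepAdic 𝒪}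
    (hρ' : (D₁.ρ.baseChangeAlong (lam : D₁.R →+* 𝒪) hlam).IsEquiv ρ')
    {P : ValuationSubring Qbar} (hP : P.LiesOverPrime p) (d' : OrdData ρ' P) {φ : GQ}
    (hφ : φ ∈ P.decompositionSubgroup ℚ) (h0 : d'.z φ ^ 2 - 1 ≠ 0) :
    Module.length 𝒪 (Cot (lam.comp π)) ≤ Module.length 𝒪 (Cot lam) +
      Ring.ord 𝒪 (d'.z φ ^ 2 - 1) := by
  have hc₂ : IsCoeff 𝒪 D₂.R := ⟨inferInstance, D₂.residue_surjective, inferInstance⟩
  have hπs := surjective_of_canonical D₁ D₂ hbc₁ π hπ hπe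
  obtain ⟨τ, hτ⟩ := exists_isTau hp hp2 hP
  obtain ⟨d⟩ := exists_ordData hord₂ hP
  have hdet := hdet₂ hc₂ D₂.ρ D₂.isOfType
  have hfin₂ : Finite (ResidueField D₂.R) := by
    refine Finite.of_surjective (ResidueField.map (algebraMap 𝒪 D₂.R)) fun y => ?_
    obtain ⟨c, hc⟩ := D₂.residue_surjective y
    exact ⟨residue 𝒪 c, hc⟩
  set v := d.y τ with hv
  have huv : (d.z φ ^ 2 - 1) * v = 0 := d.sq_sub_one_mul_eq_zero hfin₂ hdet hp hP hτ hφ
  -- the value of `z`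
  have hlamπ : IsLocalHom ((lam : D₁.R →+* 𝒪).comp (π : D₂.R →+* D₁.R)) :=
    RingHom.isLocalHom_comp _ _
  have hz : lam (π (d.z φ)) = d'.z φ := by
    have h1 : (D₂.ρ.baseChangeAlong ((lam : D₁.R →+* 𝒪).comp (π : D₂.R →+* D₁.R))
        hlamπ).IsEquiv ρ' := by
      refine IsEquiv.trans' (IsEquiv.symm' (bc_comp D₂.ρ (π : D₂.R →+* D₁.R) hπ
        (lam : D₁.R →+* 𝒪) hlam _ hlamπ rfl)) ?_
      exact IsEquiv.trans' (IsEquiv.bc hπe _ hlam) hρ'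
    have hcO : IsCoeff 𝒪 𝒪 := ⟨⟨fun a ha => ha⟩, residue_surjective, inferInstance⟩
    have hdetbc : (D₂.ρ.baseChangeAlong ((lam : D₁.R →+* 𝒪).comp (π : D₂.R →+* D₁.R))
        hlamπ).DetIsCyclotomic p :=
      hdet₂ hcO _ (hbc₂ hc₂ hcO (lam.comp π) hlamπ D₂.isOfType)
    exact (d.baseChange _ hlamπ).z_eq d' h1 hdetbc hp hp2 hP hφ
  have hval : lam (π (d.z φ ^ 2 - 1)) = d'.z φ ^ 2 - 1 := by
    rw [map_sub, map_sub, map_pow, map_pow, map_one, map_one, hz]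
  have hne : lam (π (d.z φ ^ 2 - 1)) ≠ 0 := by rwa [hval]
  rw [← hval]
  refine length_cot_le_of_principal π hπs lam v (d.z φ ^ 2 - 1) ?_ huv hne
  -- the kernel of `π`
  set J : Ideal D₂.R := Ideal.span {v} with hJ
  have hvm : v ∈ maximalIdeal D₂.R := by
    by_contra hcon
    have h1 : IsUnit v := by
      by_contra h2
      exact hcon h2
    rw [h1.mul_left_eq_zero] at huv
    apply hne
    rw [huv, map_zero, map_zero]
  have hJtop : J ≠ ⊤ := by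
    intro h
    have h1 : J ≤ maximalIdeal D₂.R := by rw [hJ, Ideal.span_singleton_le_iff_mem]; exact hvm
    exact (maximalIdeal.isMaximal D₂.R).ne_top (top_le_iff.mp (h ▸ h1))
  obtain ⟨hl, hcomp, hloc, hsurj, hmk⟩ := quotient_facts (𝒪 := 𝒪) D₂.residue_surjective hJtop
  have hcq : IsCoeff 𝒪 (D₂.R ⧸ J) := ⟨hloc, hsurj, inferInstance⟩
  set mk : D₂.R →ₐ[𝒪] D₂.R ⧸ J := Ideal.Quotient.mkₐ 𝒪 J with hmkdef
  have h𝒟₂ : 𝒟₂ (D₂.ρ.baseChangeAlong (mk : D₂.R →+* D₂.R ⧸ J) hmk) :=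
    hbc₂ hc₂ hcq mk hmk D₂.isOfType
  have hflat : (D₂.ρ.baseChangeAlong (mk : D₂.R →+* D₂.R ⧸ J) hmk).IsFlatAt p := by
    refine (d.baseChange (mk : D₂.R →+* D₂.R ⧸ J) hmk).isFlatAt (hdet₂ hcq _ h𝒟₂) hp hP hτ ?_ ?_
    · refine Finite.of_surjective (ResidueField.map (algebraMap 𝒪 (D₂.R ⧸ J))) fun y => ?_
      obtain ⟨c, hc⟩ := hsurj y
      exact ⟨residue 𝒪 c, hc⟩
    · exact Ideal.Quotient.eq_zero_iff_mem.mpr (Ideal.mem_span_singleton_self v)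
  have h𝒟₁ := h𝒟 hcq _ h𝒟₂ hflat
  obtain ⟨h, ⟨hh, hhe⟩, -⟩ := D₁.universal (D₂.R ⧸ J) hsurj _ h𝒟₁
    (residual_bc D₂.residual_isEquiv mk hmk)
  have hhπ_loc : IsLocalHom ((h.comp π : D₂.R →ₐ[𝒪] D₂.R ⧸ J) : D₂.R →+* D₂.R ⧸ J) :=
    RingHom.isLocalHom_comp (h : D₁.R →+* D₂.R ⧸ J) (π : D₂.R →+* D₁.R)
  have h1 : h.comp π = mk := by
    refine universal_unique D₂ hsurj hhπ_loc hmk ?_ h𝒟₂
    refine IsEquiv.trans' (IsEquiv.symm' (bc_comp D₂.ρ (π : D₂.R →+* D₁.R) hπ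
      (h : D₁.R →+* D₂.R ⧸ J) hh _ hhπ_loc rfl)) ?_
    exact IsEquiv.trans' (IsEquiv.bc hπe _ hh) hhe
  intro x hx
  have h3 : h (π x) = mk x := DFunLike.congr_fun h1 x
  rw [(RingHom.mem_ker).mp hx, map_zero] at h3
  exact Ideal.Quotient.eq_zero_iff_mem.mp h3.symm

end Main

end Fermat.Agent.RT.PStep
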